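/-
S36 block [L] (local roots), file 1: `e`-th roots of one-units modulo nilpotents, and uniqueness of
`e`-th roots in a local ring.

* `exists_root` : `I ^ M ≤ J`, `e` a unit of `A`, `a ≡ 1` modulo `I`  ⟹  there is `v ≡ 1` modulo `I`
  with `v ^ e ≡ a` modulo `J` (Newton iteration, multiplicative form; no inverse of `a` is used).
* `exists_root_mul` : the same for the equation `u * b ^ e ≡ 1` near an approximate root `y`
  (`u * y ^ e ≡ 1` modulo `I`, `I` inside the Jacobson radical).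
* `sub_mem_of_pow_sub_pow_mem` : in a local ring with `e` a unit, two `e`-th roots of the same element
  modulo an ideal `K` which are congruent modulo the maximal ideal (one of them a unit) are congruent
  modulo `K`.
-/
import Mathlib

set_option autoImplicit false

namespace Fermat.Agent.S36.Local.OneUnitRoot

variable {A : Type*} [CommRing A]

/-- `(1 + x) ^ e = 1 + e x + x² c`. -/
theorem one_add_pow_eq (e : ℕ) (x : A) : ∃ c : A, (1 + x) ^ e = 1 + (e : A) * x + x ^ 2 * c := by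
  induction e with
  | zero => exact ⟨0, by simp⟩
  | succ n ih =>
    obtain ⟨c, hc⟩ := ih
    refine ⟨c * (1 + x) + (n : A), ?_⟩
    rw [pow_succ, hc]
    push_cast
    ring

/-- A power of an element congruent to `1` modulo `I` is congruent to `1` modulo `I`. -/
theorem pow_sub_one_mem (I : Ideal A) {v : A} (hv : v - 1 ∈ I) (e : ℕ) : v ^ e - 1 ∈ I := by
  obtain ⟨c, hc⟩ := sub_dvd_pow_sub_pow v 1 e
  rw [one_pow] at hc
  rw [hc]
  exact I.mul_mem_right _ hv

/-- **Newton step.** -/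
theorem newton_step (I : Ideal A) {e : ℕ} {e' : A} (he : (e : A) * e' = 1) {a v : A} {n : ℕ}
    (hn : 1 ≤ n) (hv1 : v - 1 ∈ I) (hva : v ^ e - a ∈ I ^ n) :
    ∃ v' : A, v' - 1 ∈ I ∧ v' ^ e - a ∈ I ^ (n + 1) := by
  set δ := v ^ e - a with hδ
  set x := -(e' * δ) with hx
  have hxI : x ∈ I ^ n := by
    rw [hx]
    exact (I ^ n).neg_mem ((I ^ n).mul_mem_left _ hva)
  have hnI : I ^ n ≤ I := Ideal.pow_le_self (by omega)
  obtain ⟨c, hc⟩ := one_add_pow_eq e x
  refine ⟨v * (1 + x), ?_, ?_⟩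
  · have : v * (1 + x) - 1 = (v - 1) + v * x := by ring
    rw [this]
    exact I.add_mem hv1 (I.mul_mem_left _ (hnI hxI))
  · have h1 : (v * (1 + x)) ^ e - a = δ * (1 - v ^ e) + v ^ e * (x ^ 2 * c) := by
      rw [mul_pow, hc, hx]
      linear_combination (-(v ^ e * δ)) * he
    rw [h1]
    refine (I ^ (n + 1)).add_mem ?_ ?_
    · rw [pow_succ]
      refine Ideal.mul_mem_mul hva ?_
      have := pow_sub_one_mem I hv1 e
      have h2 : 1 - v ^ e = -(v ^ e - 1) := by ring
      rw [h2]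
      exact I.neg_mem this
    · have h2 : x ^ 2 ∈ I ^ (n + 1) := by
        have h3 : x ^ 2 ∈ I ^ (n + n) := by
          rw [pow_add, sq]
          exact Ideal.mul_mem_mul hxI hxI
        exact Ideal.pow_le_pow_right (by omega) h3
      exact (I ^ (n + 1)).mul_mem_left _ ((I ^ (n + 1)).mul_mem_right _ h2)

/-- **Roots of one-units modulo nilpotents.** -/
theorem exists_root (I J : Ideal A) {M : ℕ} (hIJ : I ^ M ≤ J) {e : ℕ} (he : IsUnit ((e : ℕ) : A))
    {a : A} (ha : a - 1 ∈ I) : ∃ v : A, v - 1 ∈ I ∧ v ^ e - a ∈ J := by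
  obtain ⟨ue, hue⟩ := he
  have he' : (e : A) * ((ue⁻¹ : Aˣ) : A) = 1 := by rw [← hue, Units.mul_inv]
  have key : ∀ n : ℕ, 1 ≤ n → ∃ v : A, v - 1 ∈ I ∧ v ^ e - a ∈ I ^ n := by
    intro n hn
    induction n, hn using Nat.le_induction with
    | base =>
      refine ⟨1, by simp, ?_⟩
      rw [one_pow, pow_one]
      have : (1 : A) - a = -(a - 1) := by ring
      rw [this]
      exact I.neg_mem ha
    | succ n hn ih =>
      obtain ⟨v, hv1, hva⟩ := ih
      exact newton_step I he' hn hv1 hva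
  rcases Nat.eq_zero_or_pos M with hM | hM
  · subst hM
    rw [pow_zero, Ideal.one_eq_top, top_le_iff] at hIJ
    exact ⟨1, by simp, by rw [hIJ]; exact Submodule.mem_top⟩
  · obtain ⟨v, hv1, hva⟩ := key M hM
    exact ⟨v, hv1, hIJ hva⟩

/-- **Roots of `u * T ^ e = 1` near an approximate root**, `I` inside the Jacobson radical. -/
theorem exists_root_mul (I J : Ideal A) (hI : I ≤ Ideal.jacobson ⊥) {M : ℕ} (hIJ : I ^ M ≤ J)
    {e : ℕ} (he : IsUnit ((e : ℕ) : A)) {u y : A} (hy : u * y ^ e - 1 ∈ I) :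
    ∃ b : A, b - y ∈ I ∧ u * b ^ e - 1 ∈ J := by
  -- `w = u y ^ e` is a unit
  have hw : IsUnit (u * y ^ e) := by
    have h1 := Ideal.mem_jacobson_bot.1 (hI hy) 1
    have h2 : (u * y ^ e - 1) * 1 + 1 = u * y ^ e := by ring
    rwa [h2] at h1
  obtain ⟨w, hw⟩ := hw
  have hww : (u * y ^ e) * ((w⁻¹ : Aˣ) : A) = 1 := by rw [← hw, Units.mul_inv]
  have ha : ((w⁻¹ : Aˣ) : A) - 1 ∈ I := by
    have : ((w⁻¹ : Aˣ) : A) - 1 = -(((w⁻¹ : Aˣ) : A) * (u * y ^ e - 1)) := by
      linear_combination hww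
    rw [this]
    exact I.neg_mem (I.mul_mem_left _ hy)
  obtain ⟨v, hv1, hva⟩ := exists_root I J hIJ he ha
  refine ⟨y * v, ?_, ?_⟩
  · have : y * v - y = y * (v - 1) := by ring
    rw [this]
    exact I.mul_mem_left _ hv1
  · have : u * (y * v) ^ e - 1 = (u * y ^ e) * (v ^ e - ((w⁻¹ : Aˣ) : A)) := by
      rw [mul_pow]
      linear_combination hww
    rw [this]
    exact J.mul_mem_left _ hva

/-- `∑_{k < e} x ^ k y ^ (e - 1 - k) = e y ^ (e - 1) + (x - y) c`. -/
theorem geom_sum₂_eq (x y : A) (e : ℕ) :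
    ∃ c : A, ∑ k ∈ Finset.range e, x ^ k * y ^ (e - 1 - k) = (e : A) * y ^ (e - 1) + (x - y) * c := by
  set I : Ideal A := Ideal.span {x - y} with hI
  have hxy : Ideal.Quotient.mk I x = Ideal.Quotient.mk I y := by
    rw [Ideal.Quotient.eq]
    exact Ideal.mem_span_singleton_self _
  have h1 : Ideal.Quotient.mk I (∑ k ∈ Finset.range e, x ^ k * y ^ (e - 1 - k) -
      (e : A) * y ^ (e - 1)) = 0 := by
    rw [map_sub, map_sum, map_mul, map_natCast, map_pow]
    have h2 : ∀ k ∈ Finset.range e, Ideal.Quotient.mk I (x ^ k * y ^ (e - 1 - k)) =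
        Ideal.Quotient.mk I y ^ (e - 1) := by
      intro k hk
      rw [Finset.mem_range] at hk
      rw [map_mul, map_pow, map_pow, hxy, ← pow_add]
      congr 1
      omega
    rw [Finset.sum_congr rfl h2, Finset.sum_const, Finset.card_range, nsmul_eq_mul, sub_self]
  rw [Ideal.Quotient.eq_zero_iff_mem, hI, Ideal.mem_span_singleton] at h1
  obtain ⟨c, hc⟩ := h1
  exact ⟨c, by linear_combination hc⟩

/-- **Uniqueness of `e`-th roots in a local ring.** -/
theorem sub_mem_of_pow_sub_pow_mem [IsLocalRing A] (K : Ideal A) {e : ℕ}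
    (he : IsUnit ((e : ℕ) : A)) {b y : A} (hy : IsUnit y)
    (hby : b - y ∈ IsLocalRing.maximalIdeal A) (h : b ^ e - y ^ e ∈ K) : b - y ∈ K := by
  obtain ⟨c, hc⟩ := geom_sum₂_eq b y e
  have hs : IsUnit (∑ k ∈ Finset.range e, b ^ k * y ^ (e - 1 - k)) := by
    by_contra hns
    have h1 : ∑ k ∈ Finset.range e, b ^ k * y ^ (e - 1 - k) ∈ IsLocalRing.maximalIdeal A :=
      (IsLocalRing.mem_maximalIdeal _).2 hns
    have h2 : (e : A) * y ^ (e - 1) ∈ IsLocalRing.maximalIdeal A := by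
      have : (e : A) * y ^ (e - 1) =
          ∑ k ∈ Finset.range e, b ^ k * y ^ (e - 1 - k) - (b - y) * c := by
        rw [hc]; ring
      rw [this]
      exact Ideal.sub_mem _ h1 (Ideal.mul_mem_right _ _ hby)
    exact (IsLocalRing.mem_maximalIdeal _).1 h2 (he.mul (hy.pow _))
  obtain ⟨s, hs⟩ := hs
  have h3 : b - y = ((s⁻¹ : Aˣ) : A) * (b ^ e - y ^ e) := by
    rw [← geom_sum₂_mul b y e, ← hs, ← mul_assoc, Units.inv_mul, one_mul]
  rw [h3]
  exact K.mul_mem_left _ h

end Fermat.Agent.S36.Local.OneUnitRoot
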