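/-
S36 block [L] (local roots), file 2: **gluing branch-wise roots at a multiple point**.

`B` a local ring, `P i` (`i ∈ ι`, finite) ideals ("the branches through the closed point"),
`Q i = ⨅ j ≠ i, P j`, and `𝔪 ^ N ≤ ⨆ i, Q i` ("two different branches meet only at the closed point").
Let `e`, `u` be units of `B` and `y i ∈ B` with `u * y i ^ e ≡ 1` modulo `P i` (a root of `T ^ e = u⁻¹`
on the branch `P i`).  If the `y i` have the same value at the closed point (`y i - y j ∈ 𝔪`: TRIVIAL
GLUING DATA) then they glue: there is `r ∈ B` with `r ≡ y i` modulo `P i` for all `i`.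

Proof (the blueprint's Hensel argument, without conductor or normalisation): let `J = ⨆ i, Q i`.  The
root of `u T ^ e = 1` near `y i₀` in `B / J` (nilpotent maximal ideal, `OneUnitRoot.exists_root_mul`)
lifts to `b ∈ B`; by uniqueness of roots in the local ring `B / (P i + J)` we get
`b - y i = p i + q i ∈ P i + Q i` (note `J ≤ P i + Q i`); then `r = b - ∑ q i` works.

`exists_pow_le` : in a noetherian local ring, for pairwise incomparable primes `P i` such that the only
primes containing `P i` are `P i` and `𝔪`, such an `N` exists.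
-/
import Mathlib
import Fermat.Agent.S36.Local.OneUnitRoot

set_option autoImplicit false

namespace Fermat.Agent.S36.Local.Glue

open Fermat.Agent.S36.Local.OneUnitRoot IsLocalRing

variable {B : Type*} [CommRing B] {ι : Type*}

/-- The intersection of the branches other than `i`. -/
def others (P : ι → Ideal B) (i : ι) : Ideal B := ⨅ j, ⨅ (_ : j ≠ i), P j

theorem others_le (P : ι → Ideal B) {i j : ι} (hij : j ≠ i) : others P i ≤ P j :=
  iInf_le_of_le j (iInf_le _ hij)

theorem mem_others (P : ι → Ideal B) (i : ι) (x : B) :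
    x ∈ others P i ↔ ∀ j, j ≠ i → x ∈ P j := by
  simp only [others, Ideal.mem_iInf]

/-- **Gluing branch-wise roots with trivial gluing data.** -/
theorem exists_glue [IsLocalRing B] [Fintype ι] [Nonempty ι] (P : ι → Ideal B) {N : ℕ}
    (hN : maximalIdeal B ^ N ≤ ⨆ i, others P i)
    {e : ℕ} (he : IsUnit ((e : ℕ) : B)) {u : B} (hu : IsUnit u)
    (y : ι → B) (hP : ∀ i, P i ≤ maximalIdeal B)
    (hy : ∀ i, u * y i ^ e - 1 ∈ P i) (hyy : ∀ i j, y i - y j ∈ maximalIdeal B) :
    ∃ r : B, (∀ i, r - y i ∈ P i) := by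
  classical
  set 𝔪 := maximalIdeal B with h𝔪
  set J : Ideal B := ⨆ i, others P i with hJ
  obtain ⟨i₀⟩ := ‹Nonempty ι›
  -- the `y i` are units
  have hyu : ∀ i, IsUnit (y i) := by
    intro i
    have h1 : IsUnit (u * y i ^ e) := by
      by_contra hns
      have h2 : u * y i ^ e ∈ 𝔪 := (mem_maximalIdeal _).2 hns
      have h3 : (1 : B) ∈ 𝔪 := by
        have : (1 : B) = u * y i ^ e - (u * y i ^ e - 1) := by ring
        rw [this]
        exact 𝔪.sub_mem h2 (hP i (hy i))
      exact (Ideal.ne_top_iff_one 𝔪).1 (maximalIdeal.isMaximal B).ne_top h3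
    have h4 : IsUnit (y i ^ e) := isUnit_of_mul_isUnit_right h1
    have he0 : e ≠ 0 := by
      rintro rfl
      rw [Nat.cast_zero] at he
      exact not_isUnit_zero he
    exact (isUnit_pow_iff he0).1 h4
  -- the root in `B / J`
  have hjac : 𝔪 ≤ Ideal.jacobson (⊥ : Ideal B) := by
    rw [IsLocalRing.jacobson_eq_maximalIdeal ⊥ bot_ne_top]
  obtain ⟨b, hb1, hbJ⟩ := exists_root_mul 𝔪 J hjac hN he (hP i₀ (hy i₀))
  -- `J ≤ P i + Q i`
  have hJle : ∀ i, J ≤ P i ⊔ others P i := by
    intro i
    refine iSup_le fun k => ?_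
    by_cases hk : k = i
    · subst hk; exact le_sup_right
    · exact (others_le P (Ne.symm hk)).trans le_sup_left
  -- `b - y i ∈ P i + Q i`
  have hdiff : ∀ i, b - y i ∈ P i ⊔ others P i := by
    intro i
    refine sub_mem_of_pow_sub_pow_mem _ he (hyu i) ?_ ?_
    · have : b - y i = (b - y i₀) + (y i₀ - y i) := by ring
      rw [this]
      exact 𝔪.add_mem hb1 (hyy i₀ i)
    · obtain ⟨uu, rfl⟩ := hu
      have h1 : (uu : B) * (b ^ e - y i ^ e) ∈ P i ⊔ others P i := by
        have : (uu : B) * (b ^ e - y i ^ e) =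
            ((uu : B) * b ^ e - 1) - ((uu : B) * y i ^ e - 1) := by ring
        rw [this]
        exact Ideal.sub_mem _ (hJle i hbJ) (le_sup_left (a := P i) (hy i))
      have h2 : b ^ e - y i ^ e = ((uu⁻¹ : Bˣ) : B) * ((uu : B) * (b ^ e - y i ^ e)) := by
        rw [← mul_assoc, Units.inv_mul, one_mul]
      rw [h2]
      exact Ideal.mul_mem_left _ _ h1
  choose p hp q hq hpq using fun i => Submodule.mem_sup.1 (hdiff i)
  refine ⟨b - ∑ i, q i, fun i => ?_⟩
  have h1 : b - ∑ j, q j - y i = p i - ∑ j ∈ Finset.univ.erase i, q j := by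
    rw [← Finset.add_sum_erase Finset.univ q (Finset.mem_univ i)]
    linear_combination -(hpq i)
  rw [h1]
  refine (P i).sub_mem (hp i) (Ideal.sum_mem _ fun j hj => ?_)
  exact others_le P (Ne.symm (Finset.ne_of_mem_erase hj)) (hq j)

/-- **Existence of the exponent `N`**: in a noetherian local ring, pairwise incomparable primes `P i`
such that the only primes containing `P i` are `P i` and the maximal ideal. -/
theorem exists_pow_le [IsLocalRing B] [IsNoetherianRing B] [Finite ι] [Nonempty ι]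
    (P : ι → Ideal B)
    (hdim : ∀ i (𝔭 : Ideal B), 𝔭.IsPrime → P i ≤ 𝔭 → 𝔭 = P i ∨ 𝔭 = maximalIdeal B)
    (hinc : ∀ i j, i ≠ j → ¬ P i ≤ P j) :
    ∃ N : ℕ, maximalIdeal B ^ N ≤ ⨆ i, others P i := by
  classical
  have := Fintype.ofFinite ι
  set J : Ideal B := ⨆ i, others P i with hJ
  have hrad : maximalIdeal B ≤ J.radical := by
    rw [Ideal.radical_eq_sInf]
    refine le_sInf ?_
    rintro 𝔭 ⟨hJ𝔭, h𝔭⟩
    -- for every `i` some `P j`, `j ≠ i`, lies in `𝔭`
    have hex : ∀ i, ∃ j, j ≠ i ∧ P j ≤ 𝔭 := by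
      intro i
      have h1 : others P i ≤ 𝔭 := (le_iSup (fun i => others P i) i).trans hJ𝔭
      have h2 : (Finset.univ.erase i).inf P ≤ 𝔭 := by
        refine le_trans ?_ h1
        intro x hx
        rw [mem_others]
        intro j hj
        rw [Submodule.mem_finsetInf] at hx
        exact hx j (Finset.mem_erase.2 ⟨hj, Finset.mem_univ j⟩)
      obtain ⟨j, hj, hj𝔭⟩ := (Ideal.IsPrime.inf_le' h𝔭).1 h2
      exact ⟨j, Finset.ne_of_mem_erase hj, hj𝔭⟩
    obtain ⟨i₀⟩ := ‹Nonempty ι›
    obtain ⟨j₁, -, hj₁⟩ := hex i₀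
    obtain ⟨j₂, hj₂ne, hj₂⟩ := hex j₁
    rcases hdim j₁ 𝔭 h𝔭 hj₁ with h | h
    · exact absurd (h ▸ hj₂) (hinc j₂ j₁ hj₂ne)
    · exact h.ge
  exact Ideal.exists_pow_le_of_le_radical_of_fg hrad (IsNoetherian.noetherian _)

end Fermat.Agent.S36.Local.Glue
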