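/-
S36 block [L] (local roots), file 3: **local roots congruent to `1` on all branches**.

`B` a local ring inside a field `F`, `V i` (`i ∈ ι`, finite) valuation subrings of `F` containing `B`
("the vertical components through the closed point"), with centres `P i = B ∩ 𝔪_{V i}`.

* `exists_lift_unit` : if `V = B_P` and `B / P` is integrally closed, an element `η` of `V` with
  `u η ^ e ≡ 1` (`u ∈ B`) has a representative `ρ ∈ B`: `η ≡ ρ` modulo `𝔪_V`.
* `exists_tau` : `f = u η ^ e`, `u ∈ Bˣ`, `f ≡ 1` modulo every `𝔪_{V i}`, and representatives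
  `y i ∈ B` of `η` modulo `𝔪_{V i}` with the same value at the closed point (TRIVIAL GLUING DATA)
  ⟹ there is `τ ≡ 1` modulo every `𝔪_{V i}` with `f / τ ^ e ∈ Bˣ`.
* `exists_tau_strong` : the upgrade to `τ ≡ 1` modulo `ϖ V i` when `f ≡ 1` modulo `ϖ V i` and
  `(⨅ P i) ^ M ≤ ϖ B` (non-reduced special fibre).
-/
import Mathlib
import Fermat.Agent.S36.Local.Glue

set_option autoImplicit false

namespace Fermat.Agent.S36.Local.LocalRoot

open Fermat.Agent.S36.Local.OneUnitRoot Fermat.Agent.S36.Local.Glue IsLocalRing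

/-! ### Nonunits of a valuation subring -/

section Val

variable {F : Type*} [Field F] (A : ValuationSubring F)

theorem nu_mul {x y : F} (hx : x ∈ A) (hy : y ∈ A.nonunits) : x * y ∈ A.nonunits := by
  rw [A.mem_nonunits_iff] at hy ⊢
  rw [map_mul, mul_comm]
  exact mul_lt_one_of_lt_of_le hy ((A.valuation_le_one_iff x).2 hx)

theorem nu_mul' {x y : F} (hx : x ∈ A.nonunits) (hy : y ∈ A) : x * y ∈ A.nonunits := by
  rw [mul_comm]
  exact nu_mul A hy hx

theorem nu_mem {x : F} (hx : x ∈ A.nonunits) : x ∈ A := A.nonunits_subset hx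

theorem one_notMem_nu : (1 : F) ∉ A.nonunits := by
  rw [A.mem_nonunits_iff, map_one]
  exact lt_irrefl _

/-- An element congruent to `1` is a unit. -/
theorem mem_and_inv_mem_of_sub_one {x : F} (hx : x - 1 ∈ A.nonunits) :
    x ≠ 0 ∧ x ∈ A ∧ x⁻¹ ∈ A := by
  have hxA : x ∈ A := by
    have : x = (x - 1) + 1 := by ring
    rw [this]
    exact add_mem (nu_mem A hx) (one_mem A)
  have hv : A.valuation x = 1 := by
    have h1 : A.valuation (x - 1) < 1 := (A.mem_nonunits_iff).1 hx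
    have h2 : A.valuation (1 : F) = 1 := map_one _
    have h3 : A.valuation (x - 1) < A.valuation (1 : F) := by rw [h2]; exact h1
    have := Valuation.map_add_eq_of_lt_right A.valuation h3
    rw [sub_add_cancel, h2] at this
    exact this
  have hx0 : x ≠ 0 := by
    rintro rfl
    rw [map_zero] at hv
    exact zero_ne_one hv
  refine ⟨hx0, hxA, ?_⟩
  rw [← A.valuation_le_one_iff, map_inv₀, hv, inv_one]

/-- If `x ^ e` is a unit of `A` then so is `x`. -/
theorem mem_and_inv_mem_of_pow {e : ℕ} (he : e ≠ 0) {x : F} (hx : x ^ e ∈ A)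
    (hxi : (x ^ e)⁻¹ ∈ A) : x ∈ A ∧ x⁻¹ ∈ A := by
  constructor
  · have h1 := (A.valuation_le_one_iff _).2 hx
    rw [map_pow] at h1
    exact (A.valuation_le_one_iff _).1 ((pow_le_one_iff he).1 h1)
  · have h1 := (A.valuation_le_one_iff _).2 hxi
    rw [← inv_pow, map_pow] at h1
    exact (A.valuation_le_one_iff _).1 ((pow_le_one_iff he).1 h1)

/-- `x ^ e - y ^ e ∈ 𝔪` if `x - y ∈ 𝔪`, `x, y ∈ A`. -/
theorem pow_sub_pow_mem_nu {x y : F} (hx : x ∈ A) (hy : y ∈ A) (h : x - y ∈ A.nonunits) (e : ℕ) :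
    x ^ e - y ^ e ∈ A.nonunits := by
  obtain ⟨c, hc⟩ := sub_dvd_pow_sub_pow (⟨x, hx⟩ : A) ⟨y, hy⟩ e
  have hc' : x ^ e - y ^ e = (x - y) * (c : F) := by
    have := congrArg (fun z : A => (z : F)) hc
    simpa using this
  rw [hc']
  exact nu_mul' A h c.2

end Val

/-! ### The centre of a valuation subring -/

section Centre

variable {B F : Type*} [CommRing B] [Field F] [Algebra B F]

/-- The centre of the valuation subring `V ⊇ B` on `B`. -/
def centre (V : ValuationSubring F) (hV : ∀ b : B, algebraMap B F b ∈ V) : Ideal B where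
  carrier := {b | algebraMap B F b ∈ V.nonunits}
  add_mem' := fun {x y} hx hy => by
    show algebraMap B F (x + y) ∈ V.nonunits
    rw [map_add]; exact V.nonunits.add_mem hx hy
  zero_mem' := by
    show algebraMap B F 0 ∈ V.nonunits
    rw [map_zero]; exact V.nonunits.zero_mem
  smul_mem' := fun c x hx => by
    show algebraMap B F (c • x) ∈ V.nonunits
    rw [smul_eq_mul, map_mul]; exact nu_mul V (hV c) hx

theorem mem_centre {V : ValuationSubring F} {hV : ∀ b : B, algebraMap B F b ∈ V} {b : B} :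
    b ∈ centre V hV ↔ algebraMap B F b ∈ V.nonunits := Iff.rfl

theorem centre_ne_top (V : ValuationSubring F) (hV : ∀ b : B, algebraMap B F b ∈ V) :
    centre V hV ≠ ⊤ := by
  rw [Ideal.ne_top_iff_one, mem_centre, map_one]
  exact one_notMem_nu V

theorem centre_le_maximalIdeal [IsLocalRing B] (V : ValuationSubring F)
    (hV : ∀ b : B, algebraMap B F b ∈ V) : centre V hV ≤ maximalIdeal B :=
  IsLocalRing.le_maximalIdeal (centre_ne_top V hV)

instance centre_isPrime (V : ValuationSubring F) (hV : ∀ b : B, algebraMap B F b ∈ V) :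
    (centre V hV).IsPrime := by
  refine ⟨centre_ne_top V hV, fun {x y} hxy => ?_⟩
  rw [mem_centre, map_mul, V.mem_nonunits_iff, map_mul] at hxy
  rw [mem_centre, mem_centre, V.mem_nonunits_iff, V.mem_nonunits_iff]
  by_contra hcon
  push Not at hcon
  have h1 : V.valuation (algebraMap B F x) = 1 :=
    le_antisymm ((V.valuation_le_one_iff _).2 (hV x)) hcon.1
  have h2 : V.valuation (algebraMap B F y) = 1 :=
    le_antisymm ((V.valuation_le_one_iff _).2 (hV y)) hcon.2
  rw [h1, h2, one_mul] at hxy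
  exact lt_irrefl _ hxy

/-- The image of a unit of `B` is a unit of `V`. -/
theorem inv_algebraMap_mem (V : ValuationSubring F) (hV : ∀ b : B, algebraMap B F b ∈ V) {u : B}
    (hu : IsUnit u) : (algebraMap B F u)⁻¹ ∈ V := by
  obtain ⟨u, rfl⟩ := hu
  have h1 : algebraMap B F (u : B) * algebraMap B F ((u⁻¹ : Bˣ) : B) = 1 := by
    rw [← map_mul, Units.mul_inv, map_one]
  rw [inv_eq_of_mul_eq_one_right h1]
  exact hV _

/-- **Representatives of roots on a smooth branch.**  `V = B_P` (`hloc`) and `B / P` integrally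
closed: an element `η ∈ V` with `u η ^ e ≡ 1` modulo `𝔪_V` (`u ∈ Bˣ`) is congruent to an element of
`B`. -/
theorem exists_lift_unit (V : ValuationSubring F) (hV : ∀ b : B, algebraMap B F b ∈ V)
    [IsIntegrallyClosed (B ⧸ centre V hV)]
    (hloc : ∀ x ∈ V, ∃ a b : B, b ∉ centre V hV ∧ x * algebraMap B F b = algebraMap B F a)
    {e : ℕ} (he : 0 < e) {η : F} {u : B} (hu : IsUnit u) (hη : η ∈ V)
    (hηu : algebraMap B F u * η ^ e - 1 ∈ V.nonunits) :
    ∃ ρ : B, η - algebraMap B F ρ ∈ V.nonunits := by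
  set P := centre V hV with hP
  set D := B ⧸ P
  set q : B →+* D := Ideal.Quotient.mk P with hq
  have hq0 : ∀ z : B, q z = 0 ↔ algebraMap B F z ∈ V.nonunits := fun z => by
    rw [hq, Ideal.Quotient.eq_zero_iff_mem, hP, mem_centre]
  obtain ⟨a, b, hb, hab⟩ := hloc η hη
  have hqb : q b ≠ 0 := fun h0 => hb (by rw [hP, mem_centre]; exact (hq0 b).1 h0)
  have hbV : algebraMap B F b ∉ V.nonunits := fun h => hb h
  have hb0 : algebraMap B F b ≠ 0 := fun h0 => hbV (h0 ▸ V.nonunits.zero_mem)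
  have hbi : (algebraMap B F b)⁻¹ ∈ V := by
    rw [V.mem_nonunits_iff_or, not_or, not_not] at hbV
    exact hbV.2
  obtain ⟨uu, rfl⟩ := hu
  -- `a ^ e ≡ u⁻¹ b ^ e`
  have h0 : q (uu : B) * q a ^ e = q b ^ e := by
    rw [← sub_eq_zero, ← map_pow, ← map_pow, ← map_mul, ← map_sub, hq0]
    have : algebraMap B F ((uu : B) * a ^ e - b ^ e) =
        (algebraMap B F (uu : B) * η ^ e - 1) * algebraMap B F b ^ e := by
      rw [map_sub, map_mul, map_pow, map_pow, ← hab]
      ring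
    rw [this]
    exact nu_mul' V hηu (pow_mem (hV b) e)
  have h1 : q a ^ e = q ((uu⁻¹ : Bˣ) : B) * q b ^ e := by
    rw [← h0, ← mul_assoc, ← map_mul, Units.inv_mul, map_one, one_mul]
  -- the fraction `q a / q b` is integral over `D`
  set E := FractionRing D
  have hbE : algebraMap D E (q b) ≠ 0 := by
    intro h0
    exact hqb ((IsFractionRing.injective D E) (by rw [h0, map_zero]))
  have hx : (algebraMap D E (q a) / algebraMap D E (q b)) ^ e =
      algebraMap D E (q ((uu⁻¹ : Bˣ) : B)) := by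
    rw [div_pow, div_eq_iff (pow_ne_zero e hbE), ← map_pow (algebraMap D E),
      ← map_pow (algebraMap D E), ← map_mul, h1]
  obtain ⟨z, hz⟩ := IsIntegrallyClosed.exists_algebraMap_eq_of_isIntegral_pow (R := D) he
    (x := algebraMap D E (q a) / algebraMap D E (q b)) (by rw [hx]; exact isIntegral_algebraMap)
  obtain ⟨ρ, rfl⟩ := Ideal.Quotient.mk_surjective z
  have h2 : q a = q ρ * q b := by
    apply IsFractionRing.injective D E
    rw [map_mul]
    have := hz
    rw [eq_div_iff hbE] at this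
    exact this.symm
  refine ⟨ρ, ?_⟩
  have h3 : algebraMap B F (a - ρ * b) ∈ V.nonunits := by
    rw [← hq0, map_sub, map_mul, h2, sub_self]
  have h4 : η - algebraMap B F ρ = algebraMap B F (a - ρ * b) * (algebraMap B F b)⁻¹ := by
    rw [map_sub, map_mul, ← hab]
    field_simp
  rw [h4]
  exact nu_mul' V h3 hbi

end Centre

/-! ### Local roots -/

section Main

variable {B F : Type*} [CommRing B] [IsLocalRing B] [Field F] [Algebra B F]
variable {ι : Type*} [Fintype ι] [Nonempty ι]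

omit [IsLocalRing B] in
theorem algebraMap_ne_zero_of_isUnit {u : B} (hu : IsUnit u) : algebraMap B F u ≠ 0 := by
  obtain ⟨u, rfl⟩ := hu
  have h1 : algebraMap B F (u : B) * algebraMap B F ((u⁻¹ : Bˣ) : B) = 1 := by
    rw [← map_mul, Units.mul_inv, map_one]
  exact left_ne_zero_of_mul_eq_one h1

theorem isUnit_of_sub_one_mem {v : B} (hv : v - 1 ∈ maximalIdeal B) : IsUnit v := by
  by_contra hns
  have h1 : v ∈ maximalIdeal B := (mem_maximalIdeal _).2 hns
  have h3 : (1 : B) ∈ maximalIdeal B := by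
    have : (1 : B) = v - (v - 1) := by ring
    rw [this]
    exact sub_mem h1 hv
  exact (Ideal.ne_top_iff_one _).1 (maximalIdeal.isMaximal B).ne_top h3

/-- **Local roots with trivial gluing data.** -/
theorem exists_tau (V : ι → ValuationSubring F) (hV : ∀ i (b : B), algebraMap B F b ∈ V i)
    {N : ℕ} (hN : maximalIdeal B ^ N ≤ ⨆ i, others (fun i => centre (V i) (hV i)) i)
    {e : ℕ} (he : IsUnit ((e : ℕ) : B)) {f η : F} {u : B} (hu : IsUnit u)
    (hf : f = algebraMap B F u * η ^ e) (hf1 : ∀ i, f - 1 ∈ (V i).nonunits)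
    (y : ι → B) (hy : ∀ i, η - algebraMap B F (y i) ∈ (V i).nonunits)
    (hyy : ∀ i j, y i - y j ∈ maximalIdeal B) :
    ∃ (τ : F) (u' : B), τ ≠ 0 ∧ IsUnit u' ∧ f = algebraMap B F u' * τ ^ e ∧
      ∀ i, τ - 1 ∈ (V i).nonunits := by
  classical
  have he0 : e ≠ 0 := by
    rintro rfl
    rw [Nat.cast_zero] at he
    exact not_isUnit_zero he
  have hu0 : algebraMap B F u ≠ 0 := algebraMap_ne_zero_of_isUnit hu
  obtain ⟨i₀⟩ := ‹Nonempty ι›
  have hf0 : f ≠ 0 := (mem_and_inv_mem_of_sub_one (V i₀) (hf1 i₀)).1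
  have hη0 : η ≠ 0 := by
    rintro rfl
    rw [zero_pow he0, mul_zero] at hf
    exact hf0 hf
  have hηe : η ^ e = f * (algebraMap B F u)⁻¹ := by
    rw [hf]; field_simp
  -- `η` is a unit of every `V i`
  have hηV : ∀ i, η ∈ V i := by
    intro i
    obtain ⟨-, hfV, hfiV⟩ := mem_and_inv_mem_of_sub_one (V i) (hf1 i)
    have h2 : η ^ e ∈ V i := by
      rw [hηe]; exact mul_mem hfV (inv_algebraMap_mem (V i) (hV i) hu)
    have h3 : (η ^ e)⁻¹ ∈ V i := by
      rw [hηe, mul_inv, inv_inv]; exact mul_mem hfiV (hV i u)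
    exact (mem_and_inv_mem_of_pow (V i) he0 h2 h3).1
  -- the `y i` are branch-wise roots
  have hyP : ∀ i, u * y i ^ e - 1 ∈ centre (V i) (hV i) := by
    intro i
    rw [mem_centre]
    have : algebraMap B F (u * y i ^ e - 1) =
        (f - 1) - algebraMap B F u * (η ^ e - algebraMap B F (y i) ^ e) := by
      rw [hf, map_sub, map_mul, map_pow, map_one]; ring
    rw [this]
    exact sub_mem (hf1 i) (nu_mul (V i) (hV i u)
      (pow_sub_pow_mem_nu (V i) (hηV i) (hV i _) (hy i) e))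
  obtain ⟨r, hr⟩ := exists_glue (fun i => centre (V i) (hV i)) hN he hu y
    (fun i => centre_le_maximalIdeal _ _) hyP hyy
  -- `r` is a unit
  have hru : IsUnit r := by
    by_contra hns
    have h1 : r ∈ maximalIdeal B := (mem_maximalIdeal _).2 hns
    have h2 : y i₀ ∈ maximalIdeal B := by
      have : y i₀ = r - (r - y i₀) := by ring
      rw [this]
      exact sub_mem h1 (centre_le_maximalIdeal _ _ (hr i₀))
    have h3 : (1 : B) ∈ maximalIdeal B := by
      have : (1 : B) = u * y i₀ ^ e - (u * y i₀ ^ e - 1) := by ring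
      rw [this]
      exact sub_mem (Ideal.mul_mem_left _ _
        (Ideal.pow_mem_of_mem _ h2 e (Nat.pos_of_ne_zero he0)))
        (centre_le_maximalIdeal _ _ (hyP i₀))
    exact (Ideal.ne_top_iff_one _).1 (maximalIdeal.isMaximal B).ne_top h3
  have hr0 : algebraMap B F r ≠ 0 := algebraMap_ne_zero_of_isUnit hru
  refine ⟨η * (algebraMap B F r)⁻¹, u * r ^ e, mul_ne_zero hη0 (inv_ne_zero hr0),
    hu.mul (hru.pow e), ?_, fun i => ?_⟩
  · rw [hf, map_mul, map_pow, mul_pow, inv_pow]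
    field_simp
  · have : η * (algebraMap B F r)⁻¹ - 1 =
        ((η - algebraMap B F (y i)) - algebraMap B F (r - y i)) * (algebraMap B F r)⁻¹ := by
      rw [map_sub]; field_simp; ring
    rw [this]
    exact nu_mul' (V i) (sub_mem (hy i) (hr i)) (inv_algebraMap_mem (V i) (hV i) hru)

omit [Fintype ι] in
/-- **The upgrade modulo `ϖ`** (non-reduced special fibre): from `τ ≡ 1` modulo `𝔪_{V i}` to
`τ' ≡ 1` modulo `ϖ V i`, if `f ≡ 1` modulo `ϖ V i` and `(⨅ P i) ^ M ≤ ϖ B`. -/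
theorem exists_tau_strong (V : ι → ValuationSubring F)
    (hV : ∀ i (b : B), algebraMap B F b ∈ V i) (ϖ : B) {M : ℕ}
    (hM : (⨅ i, centre (V i) (hV i)) ^ M ≤ Ideal.span {ϖ})
    {e : ℕ} (he : IsUnit ((e : ℕ) : B)) {f τ : F} {u : B} (hu : IsUnit u)
    (hf : f = algebraMap B F u * τ ^ e)
    (hfϖ : ∀ i, ∃ w ∈ V i, f - 1 = algebraMap B F ϖ * w)
    (hf1 : ∀ i, f - 1 ∈ (V i).nonunits)
    (hτ : ∀ i, τ - 1 ∈ (V i).nonunits) :
    ∃ (τ' : F) (u' : B), τ' ≠ 0 ∧ IsUnit u' ∧ f = algebraMap B F u' * τ' ^ e ∧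
      (∃ c : B, u' - 1 = ϖ * c) ∧ ∀ i, ∃ w ∈ V i, τ' - 1 = algebraMap B F ϖ * w := by
  classical
  obtain ⟨i₀⟩ := ‹Nonempty ι›
  set I : Ideal B := ⨅ i, centre (V i) (hV i) with hI
  have hIle : ∀ i, I ≤ centre (V i) (hV i) := fun i => iInf_le _ i
  have hτV : ∀ i, τ ≠ 0 ∧ τ ∈ V i ∧ τ⁻¹ ∈ V i := fun i => mem_and_inv_mem_of_sub_one (V i) (hτ i)
  -- `u ≡ 1` on every branch
  have hu1 : u - 1 ∈ I := by
    rw [hI, Ideal.mem_iInf]
    intro i
    rw [mem_centre]
    have : algebraMap B F (u - 1) = (f - 1) - algebraMap B F u * (τ ^ e - 1 ^ e) := by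
      rw [hf, map_sub, map_one, one_pow]; ring
    rw [this]
    exact sub_mem (hf1 i) (nu_mul (V i) (hV i u)
      (pow_sub_pow_mem_nu (V i) (hτV i).2.1 (one_mem _) (hτ i) e))
  obtain ⟨v, hv1, hvu⟩ := exists_root I (Ideal.span {ϖ}) hM he hu1
  have hvu' : IsUnit v :=
    isUnit_of_sub_one_mem ((centre_le_maximalIdeal _ _) (hIle i₀ hv1))
  obtain ⟨vv, rfl⟩ := hvu'
  obtain ⟨uu, rfl⟩ := hu
  obtain ⟨c₀, hc₀⟩ := Ideal.mem_span_singleton'.1 hvu
  -- the new unit
  set u' : B := (uu : B) * ((vv⁻¹ : Bˣ) : B) ^ e with hu'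
  have hu'u : IsUnit u' := uu.isUnit.mul ((vv⁻¹).isUnit.pow e)
  have hvv : (vv : B) * ((vv⁻¹ : Bˣ) : B) = 1 := Units.mul_inv vv
  have hvvF : algebraMap B F (vv : B) * algebraMap B F ((vv⁻¹ : Bˣ) : B) = 1 := by
    rw [← map_mul, hvv, map_one]
  have hc : u' - 1 = ϖ * (-(((vv⁻¹ : Bˣ) : B) ^ e * c₀)) := by
    have h1 : ((vv : B) * ((vv⁻¹ : Bˣ) : B)) ^ e = 1 := by rw [hvv, one_pow]
    rw [mul_pow] at h1
    rw [hu']
    linear_combination (((vv⁻¹ : Bˣ) : B) ^ e) * hc₀ + h1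
  have hfu' : f = algebraMap B F u' * (τ * algebraMap B F (vv : B)) ^ e := by
    have h1 : (algebraMap B F (vv : B) * algebraMap B F ((vv⁻¹ : Bˣ) : B)) ^ e = 1 := by
      rw [hvvF, one_pow]
    rw [mul_pow] at h1
    rw [hf, hu', map_mul, map_pow, mul_pow]
    linear_combination (-(algebraMap B F (uu : B) * τ ^ e)) * h1
  have hv0 : algebraMap B F (vv : B) ≠ 0 := algebraMap_ne_zero_of_isUnit vv.isUnit
  refine ⟨τ * algebraMap B F (vv : B), u', mul_ne_zero (hτV i₀).1 hv0, hu'u, hfu',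
    ⟨_, hc⟩, fun i => ?_⟩
  -- work in the local ring `V i`
  set τ' := τ * algebraMap B F (vv : B) with hτ'
  have hτ'V : τ' ∈ V i := mul_mem (hτV i).2.1 (hV i _)
  have hτ'1 : τ' - 1 ∈ (V i).nonunits := by
    have : τ' - 1 = (τ - 1) * algebraMap B F (vv : B) + algebraMap B F ((vv : B) - 1) := by
      rw [hτ', map_sub, map_one]; ring
    rw [this]
    exact add_mem (nu_mul' (V i) (hτ i) (hV i _)) (hIle i hv1)
  -- `τ' ^ e ≡ 1` modulo `ϖ`
  obtain ⟨w, hw, hfw⟩ := hfϖ i
  obtain ⟨u'', hu''⟩ := hu'u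
  have hu''F : algebraMap B F ((u''⁻¹ : Bˣ) : B) * algebraMap B F u' = 1 := by
    rw [← map_mul, ← hu'', Units.inv_mul, map_one]
  have hpow : τ' ^ e - 1 = algebraMap B F ϖ *
      (algebraMap B F ((u''⁻¹ : Bˣ) : B) *
        (w - algebraMap B F (-(((vv⁻¹ : Bˣ) : B) ^ e * c₀)))) := by
    have h1 : algebraMap B F u' - 1 =
        algebraMap B F ϖ * algebraMap B F (-(((vv⁻¹ : Bˣ) : B) ^ e * c₀)) := by
      rw [← map_mul, ← hc, map_sub, map_one]
    have h2 : τ' ^ e = algebraMap B F ((u''⁻¹ : Bˣ) : B) * f := by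
      rw [hfu', ← mul_assoc, hu''F, one_mul]
    rw [h2]
    linear_combination (algebraMap B F ((u''⁻¹ : Bˣ) : B)) * hfw
      - (algebraMap B F ((u''⁻¹ : Bˣ) : B)) * h1 + hu''F
  -- uniqueness of roots in `V i`
  obtain ⟨ue, hue⟩ := he
  have heV : IsUnit (((e : ℕ) : (V i))) := by
    refine IsUnit.of_mul_eq_one (⟨algebraMap B F ((ue⁻¹ : Bˣ) : B), hV i _⟩ : V i)
      (Subtype.ext ?_)
    show (((e : ℕ) : (V i)) : F) * algebraMap B F ((ue⁻¹ : Bˣ) : B) = 1
    have : (((e : ℕ) : (V i)) : F) = algebraMap B F ((e : ℕ) : B) := by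
      rw [map_natCast]; simp
    rw [this, ← hue, ← map_mul, Units.mul_inv, map_one]
  have hmem : (⟨τ', hτ'V⟩ : V i) - 1 ∈
      Ideal.span {(⟨algebraMap B F ϖ, hV i ϖ⟩ : V i)} := by
    refine sub_mem_of_pow_sub_pow_mem _ heV isUnit_one ?_ ?_
    · rw [← ValuationSubring.coe_mem_nonunits_iff]
      exact hτ'1
    · rw [Ideal.mem_span_singleton']
      refine ⟨⟨algebraMap B F ((u''⁻¹ : Bˣ) : B) *
          (w - algebraMap B F (-(((vv⁻¹ : Bˣ) : B) ^ e * c₀))),
        mul_mem (hV i _) (sub_mem hw (hV i _))⟩, Subtype.ext ?_⟩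
      show algebraMap B F ((u''⁻¹ : Bˣ) : B) *
          (w - algebraMap B F (-(((vv⁻¹ : Bˣ) : B) ^ e * c₀))) * algebraMap B F ϖ =
        τ' ^ e - 1 ^ e
      rw [one_pow, hpow]; ring
  obtain ⟨a, ha⟩ := Ideal.mem_span_singleton'.1 hmem
  refine ⟨a, a.2, ?_⟩
  have := congrArg (fun z : V i => (z : F)) ha
  simp only [MulMemClass.coe_mul, AddSubgroupClass.coe_sub, OneMemClass.coe_one] at this
  rw [← this]; ring

end Main

end Fermat.Agent.S36.Local.LocalRoot
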