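/-
S36 block [L] (local roots), file 4: **spreading a local root to the components not through the point**.

`B ⊆ F` a local domain with fraction field `F`; `VI i ⊇ B` the branches through the closed point,
`VJ j` the other vertical components (`B ⊄ VJ j`).  Suppose there is a "partition of unity"
`δ ∈ Bˣ` with `δ ≡ 1` modulo `𝔪_B` and modulo `ϖ VI i`, and `δ ∈ 𝔪_{VJ j}` (e.g. `δ = D / (D + y)`,
`ChartSpread` below).  Then every `τ ∈ Fˣ` with `τ ≡ 1` modulo `ϖ VI i` can be corrected by a unit `r` of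
`B`, `r ≡ 1` modulo `ϖ VI i`, such that `τ r ≡ 1` modulo `ϖ VJ j` for all `j`:
with `τ = a / b`, `ε = δ ^ n` (`n` large),  `r = (b (1 - ε) + ε) / (a (1 - ε) + ε)`.
-/
import Mathlib
import Fermat.Agent.S36.Local.LocalRoot

set_option autoImplicit false

namespace Fermat.Agent.S36.Local.Spread

open Fermat.Agent.S36.Local.LocalRoot IsLocalRing

section Cong

variable {F : Type*} [Field F] (A : ValuationSubring F) (ϖ : F)

/-- `x ∈ ϖ A`. -/
def Cong (x : F) : Prop := ∃ w ∈ A, x = ϖ * w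

variable {A ϖ}

theorem Cong.add {x y : F} (hx : Cong A ϖ x) (hy : Cong A ϖ y) : Cong A ϖ (x + y) := by
  obtain ⟨w, hw, rfl⟩ := hx
  obtain ⟨w', hw', rfl⟩ := hy
  exact ⟨w + w', add_mem hw hw', by ring⟩

theorem Cong.neg {x : F} (hx : Cong A ϖ x) : Cong A ϖ (-x) := by
  obtain ⟨w, hw, rfl⟩ := hx
  exact ⟨-w, neg_mem hw, by ring⟩

theorem Cong.sub {x y : F} (hx : Cong A ϖ x) (hy : Cong A ϖ y) : Cong A ϖ (x - y) := by
  rw [sub_eq_add_neg]
  exact hx.add hy.neg

theorem Cong.mul_right {x : F} (hx : Cong A ϖ x) {y : F} (hy : y ∈ A) : Cong A ϖ (x * y) := by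
  obtain ⟨w, hw, rfl⟩ := hx
  exact ⟨w * y, mul_mem hw hy, by ring⟩

theorem Cong.mul_left {x : F} (hx : Cong A ϖ x) {y : F} (hy : y ∈ A) : Cong A ϖ (y * x) := by
  rw [mul_comm]
  exact hx.mul_right hy

theorem cong_zero : Cong A ϖ 0 := ⟨0, zero_mem _, by ring⟩

/-- `x ≡ 1` implies `x ^ n ≡ 1`. -/
theorem Cong.pow_sub_one {x : F} (hx : Cong A ϖ (x - 1)) (hxA : x ∈ A) (n : ℕ) :
    Cong A ϖ (x ^ n - 1) := by
  obtain ⟨c, hc⟩ := sub_dvd_pow_sub_pow (⟨x, hxA⟩ : A) 1 n
  have hc' : x ^ n - 1 = (x - 1) * (c : F) := by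
    have := congrArg (fun z : A => (z : F)) hc
    simpa using this
  rw [hc']
  exact hx.mul_right c.2

/-- If `ϖ ∈ 𝔪_A`, a quotient of two elements congruent to `1` is congruent to `1`. -/
theorem Cong.div_sub_one (hϖ : ϖ ∈ A.nonunits) {x y : F} (hx : Cong A ϖ (x - 1))
    (hy : Cong A ϖ (y - 1)) : Cong A ϖ (x / y - 1) := by
  have hy1 : y - 1 ∈ A.nonunits := by
    obtain ⟨w, hw, h⟩ := hy
    rw [h]
    exact nu_mul' A hϖ hw
  obtain ⟨hy0, -, hyi⟩ := mem_and_inv_mem_of_sub_one A hy1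
  have : x / y - 1 = ((x - 1) - (y - 1)) * y⁻¹ := by
    field_simp
    ring
  rw [this]
  exact (hx.sub hy).mul_right hyi

end Cong

variable {B F : Type*} [CommRing B] [IsLocalRing B] [Field F] [Algebra B F]
  [IsFractionRing B F]

/-- **Spreading.** -/
theorem exists_spread {ιI ιJ : Type*} [Finite ιJ] (VI : ιI → ValuationSubring F)
    (VJ : ιJ → ValuationSubring F) (hVI : ∀ i (b : B), algebraMap B F b ∈ VI i)
    {ϖ : F} (hϖ0 : ϖ ≠ 0) (hϖJ : ∀ j, ϖ ∈ (VJ j).nonunits)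
    {δ : B} (hδ1 : δ - 1 ∈ maximalIdeal B)
    (hδI : ∀ i, Cong (VI i) ϖ (algebraMap B F δ - 1))
    (hδJ : ∀ j, algebraMap B F δ ∈ (VJ j).nonunits)
    (harch : ∀ j (z : F), z ≠ 0 → ∃ n : ℕ, algebraMap B F δ ^ n * z⁻¹ ∈ VJ j)
    {τ : F} (hτ0 : τ ≠ 0) :
    ∃ r : B, IsUnit r ∧ (∀ i, Cong (VI i) ϖ (algebraMap B F r - 1)) ∧
      ∀ j, Cong (VJ j) ϖ (τ * algebraMap B F r - 1) := by
  classical
  have := Fintype.ofFinite ιJ
  have hinj : Function.Injective (algebraMap B F) := IsFractionRing.injective B F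
  obtain ⟨a, b, hb, rfl⟩ := IsFractionRing.div_surjective (A := B) τ
  have hb0 : b ≠ 0 := nonZeroDivisors.ne_zero hb
  have hbF : algebraMap B F b ≠ 0 := fun h0 => hb0 (hinj (by rw [h0, map_zero]))
  have haF : algebraMap B F a ≠ 0 := by
    intro h0
    rw [h0, zero_div] at hτ0
    exact hτ0 rfl
  set d : F := algebraMap B F δ with hd
  have hdJ : ∀ j, d ∈ VJ j := fun j => nu_mem _ (hδJ j)
  -- monotonicity of the archimedean property
  have hmono : ∀ j (z : F) (n m : ℕ), n ≤ m → d ^ n * z⁻¹ ∈ VJ j → d ^ m * z⁻¹ ∈ VJ j := by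
    intro j z n m hnm h
    obtain ⟨k, rfl⟩ := Nat.exists_eq_add_of_le hnm
    have : d ^ (n + k) * z⁻¹ = d ^ k * (d ^ n * z⁻¹) := by rw [pow_add]; ring
    rw [this]
    exact mul_mem (pow_mem (hdJ j) k) h
  choose n₁ hn₁ using fun j => harch j ϖ hϖ0
  choose n₂ hn₂ using fun j => harch j (ϖ * algebraMap B F a) (mul_ne_zero hϖ0 haF)
  choose n₃ hn₃ using fun j => harch j (ϖ * algebraMap B F b) (mul_ne_zero hϖ0 hbF)
  set n : ℕ := ∑ j, (n₁ j + n₂ j + n₃ j) with hn
  have hle : ∀ j, n₁ j + n₂ j + n₃ j ≤ n := fun j =>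
    Finset.single_le_sum (f := fun j => n₁ j + n₂ j + n₃ j) (fun _ _ => Nat.zero_le _)
      (Finset.mem_univ j)
  have h1 : ∀ j, d ^ n * ϖ⁻¹ ∈ VJ j := fun j =>
    hmono j _ _ _ ((by omega : n₁ j ≤ n₁ j + n₂ j + n₃ j).trans (hle j)) (hn₁ j)
  have h2 : ∀ j, d ^ n * (ϖ * algebraMap B F a)⁻¹ ∈ VJ j := fun j =>
    hmono j _ _ _ ((by omega : n₂ j ≤ n₁ j + n₂ j + n₃ j).trans (hle j)) (hn₂ j)
  have h3 : ∀ j, d ^ n * (ϖ * algebraMap B F b)⁻¹ ∈ VJ j := fun j =>
    hmono j _ _ _ ((by omega : n₃ j ≤ n₁ j + n₂ j + n₃ j).trans (hle j)) (hn₃ j)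
  -- `ε = δ ^ n`
  set ε : B := δ ^ n with hε
  have hεF : algebraMap B F ε = d ^ n := by rw [hε, map_pow]
  have hε1 : ε - 1 ∈ maximalIdeal B := by
    obtain ⟨c, hc⟩ := sub_dvd_pow_sub_pow δ 1 n
    rw [one_pow] at hc
    rw [hε, hc]
    exact Ideal.mul_mem_right _ _ hδ1
  -- numerator and denominator
  set num : B := b + ε * (1 - b) with hnum
  set den : B := a + ε * (1 - a) with hden
  have hnum1 : num - 1 = (ε - 1) * (1 - b) := by rw [hnum]; ring
  have hden1 : den - 1 = (ε - 1) * (1 - a) := by rw [hden]; ring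
  have hnumu : IsUnit num :=
    isUnit_of_sub_one_mem (by rw [hnum1]; exact Ideal.mul_mem_right _ _ hε1)
  have hdenu : IsUnit den :=
    isUnit_of_sub_one_mem (by rw [hden1]; exact Ideal.mul_mem_right _ _ hε1)
  obtain ⟨denu, hdenu'⟩ := hdenu
  have hdenF : algebraMap B F den * algebraMap B F ((denu⁻¹ : Bˣ) : B) = 1 := by
    rw [← map_mul, ← hdenu', Units.mul_inv, map_one]
  have hden0 : algebraMap B F den ≠ 0 := left_ne_zero_of_mul_eq_one hdenF
  have hdeni : algebraMap B F ((denu⁻¹ : Bˣ) : B) = (algebraMap B F den)⁻¹ :=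
    eq_inv_of_mul_eq_one_right hdenF
  refine ⟨num * ((denu⁻¹ : Bˣ) : B), hnumu.mul (denu⁻¹).isUnit, fun i => ?_, fun j => ?_⟩
  · -- on the branches through the point
    have hεI : Cong (VI i) ϖ (algebraMap B F ε - 1) := by
      rw [hεF]
      exact (hδI i).pow_sub_one (hVI i δ) n
    have hnumI : Cong (VI i) ϖ (algebraMap B F num - 1) := by
      have : algebraMap B F num - 1 = (algebraMap B F ε - 1) * algebraMap B F (1 - b) := by
        rw [← map_one (algebraMap B F), ← map_sub, ← map_sub, ← map_mul, hnum1]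
      rw [this]
      exact hεI.mul_right (hVI i _)
    have hdenI : Cong (VI i) ϖ (algebraMap B F den - 1) := by
      have : algebraMap B F den - 1 = (algebraMap B F ε - 1) * algebraMap B F (1 - a) := by
        rw [← map_one (algebraMap B F), ← map_sub, ← map_sub, ← map_mul, hden1]
      rw [this]
      exact hεI.mul_right (hVI i _)
    have : algebraMap B F (num * ((denu⁻¹ : Bˣ) : B)) - 1 =
        ((algebraMap B F num - 1) - (algebraMap B F den - 1)) *
          algebraMap B F ((denu⁻¹ : Bˣ) : B) := by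
      rw [map_mul]
      linear_combination hdenF
    rw [this]
    exact (hnumI.sub hdenI).mul_right (hVI i _)
  · -- on the other components
    have hnumJ : Cong (VJ j) ϖ (algebraMap B F num / algebraMap B F b - 1) := by
      refine ⟨d ^ n * (ϖ * algebraMap B F b)⁻¹ - d ^ n * ϖ⁻¹, sub_mem (h3 j) (h1 j), ?_⟩
      rw [hnum, map_add, map_mul, map_sub, map_one, hεF]
      field_simp
      ring
    have hdenJ : Cong (VJ j) ϖ (algebraMap B F den / algebraMap B F a - 1) := by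
      refine ⟨d ^ n * (ϖ * algebraMap B F a)⁻¹ - d ^ n * ϖ⁻¹, sub_mem (h2 j) (h1 j), ?_⟩
      rw [hden, map_add, map_mul, map_sub, map_one, hεF]
      field_simp
      ring
    have := Cong.div_sub_one (hϖJ j) hnumJ hdenJ
    have heq : algebraMap B F a / algebraMap B F b * algebraMap B F (num * ((denu⁻¹ : Bˣ) : B)) =
        algebraMap B F num / algebraMap B F b / (algebraMap B F den / algebraMap B F a) := by
      rw [map_mul, hdeni]
      field_simp
    rw [heq]
    exact this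

end Fermat.Agent.S36.Local.Spread
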