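/-
S36 block [L] (local roots), file 5: **from a branch-wise local root to `PowCover.LocalRoots`**.

`R` a noetherian domain (a chart of the model), `F = Frac R`, `V i ⊇ R` (`i ∈ ι`, finite) the vertical
valuation rings with centres `𝔭 i` on `R`, `ϖ ∈ R` the uniformiser of the base, and

* `hE`   : `x ∈ 𝔪_{V i} → x ^ E ∈ ϖ V i`                      (`FamVal.pow_unif`),
* `hsep` : `∀ z ≠ 0, ∃ n, ϖ ^ n / z ∈ V i`                      (`V i` is `ϖ`-adically separated),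
* `hinc` : the centres are pairwise incomparable,
* `hsat` : `R ∩ ϖ W = ϖ R`                                      (`IsSemiGaussRing.sat`).

At a maximal ideal `𝔫 ∋ ϖ` let `B = locAt 𝔫`.  `localRoot_of_tau` : a local root `τ` of `h ≡ 1 (ϖ W)`
(`h = u τ ^ e`, `u ∈ Bˣ`) which is `≡ 1` modulo `𝔪_{V i}` on the branches THROUGH `𝔫` can be replaced by a
local root `τ' ≡ 1` modulo `ϖ V i` for ALL `i` — the shape of `P3G.Assembly.PowCover.LocalRoots`.
-/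
import Mathlib
import Fermat.Agent.N4.Cover.Globalize
import Fermat.Agent.S36.Local.Spread

set_option autoImplicit false

namespace Fermat.Agent.S36.Local.ChartSpread

open Fermat.Agent.S36.Local.LocalRoot Fermat.Agent.S36.Local.Spread
  Fermat.Agent.S36.Local.OneUnitRoot Fermat.Agent.N4.Cover.Globalize IsLocalRing

variable {R F : Type*} [CommRing R] [IsDomain R] [Field F] [Algebra R F] [IsFractionRing R F]

section LocAt

variable (𝔫 : Ideal R) [𝔫.IsPrime]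

/-- Elements of `locAt 𝔫` lie in every valuation ring whose centre is inside `𝔫`. -/
theorem locAt_le (V : ValuationSubring F) (hV : ∀ r : R, algebraMap R F r ∈ V)
    (hc : centre V hV ≤ 𝔫) (b : locAt (F := F) 𝔫) : algebraMap (locAt (F := F) 𝔫) F b ∈ V := by
  obtain ⟨a, s, hs, hbs⟩ := (mem_locAt_iff 𝔫 (b : F)).1 b.2
  have hsV : algebraMap R F s ∉ V.nonunits := fun h => hs (hc h)
  have hs0 : algebraMap R F s ≠ 0 := fun h0 => hsV (h0 ▸ V.nonunits.zero_mem)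
  have hsi : (algebraMap R F s)⁻¹ ∈ V := by
    rw [V.mem_nonunits_iff_or, not_or, not_not] at hsV
    exact hsV.2
  have : algebraMap (locAt (F := F) 𝔫) F b = algebraMap R F a * (algebraMap R F s)⁻¹ := by
    show (b : F) = _
    rw [← hbs]
    field_simp
  rw [this]
  exact mul_mem (hV a) hsi

/-- The element `a / s` of `locAt 𝔫`. -/
noncomputable def frac (a s : R) (hs : s ∉ 𝔫) : locAt (F := F) 𝔫 :=
  ⟨algebraMap R F a / algebraMap R F s, (mem_locAt_iff 𝔫 _).2 ⟨a, s, hs, by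
    have : algebraMap R F s ≠ 0 := fun h0 =>
      hs ((IsFractionRing.injective R F (by rw [h0, map_zero]) : s = 0) ▸ 𝔫.zero_mem)
    field_simp⟩⟩

theorem coe_frac (a s : R) (hs : s ∉ 𝔫) :
    algebraMap (locAt (F := F) 𝔫) F (frac 𝔫 a s hs) = algebraMap R F a / algebraMap R F s := rfl

omit [IsDomain R] [𝔫.IsPrime] in
theorem algebraMap_ne_zero {s : R} (hs : s ∉ 𝔫) : algebraMap R F s ≠ 0 := fun h0 =>
  hs ((IsFractionRing.injective R F (by rw [h0, map_zero]) : s = 0) ▸ 𝔫.zero_mem)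

/-- `a / s` is a unit of `locAt 𝔫` if `a ∉ 𝔫`. -/
theorem isUnit_frac {a s : R} (ha : a ∉ 𝔫) (hs : s ∉ 𝔫) : IsUnit (frac (F := F) 𝔫 a s hs) := by
  refine IsUnit.of_mul_eq_one (frac 𝔫 s a ha) (Subtype.ext ?_)
  show algebraMap R F a / algebraMap R F s * (algebraMap R F s / algebraMap R F a) = 1
  have h1 := algebraMap_ne_zero (F := F) 𝔫 ha
  have h2 := algebraMap_ne_zero (F := F) 𝔫 hs
  field_simp

/-- `a / s ∈ 𝔪` if `a ∈ 𝔫`. -/
theorem frac_mem_maximalIdeal [IsNoetherianRing R] {a s : R} (ha : a ∈ 𝔫) (hs : s ∉ 𝔫) :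
    haveI := isLocalRing_locAt (F := F) 𝔫
    frac (F := F) 𝔫 a s hs ∈ maximalIdeal (locAt (F := F) 𝔫) := by
  have := isLocalRing_locAt (F := F) 𝔫
  have h1 : algebraMap R (locAt (F := F) 𝔫) a ∈ maximalIdeal (locAt (F := F) 𝔫) :=
    (IsLocalization.AtPrime.to_map_mem_maximal_iff (locAt (F := F) 𝔫) 𝔫 a).2 ha
  have h2 : frac (F := F) 𝔫 a s hs =
      frac (F := F) 𝔫 1 s hs * algebraMap R (locAt (F := F) 𝔫) a := by
    apply Subtype.ext
    show algebraMap R F a / algebraMap R F s =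
      algebraMap R F 1 / algebraMap R F s * algebraMap R F a
    rw [map_one]; ring
  rw [h2]
  exact Ideal.mul_mem_left _ _ h1

/-- Units of `locAt 𝔫` are fractions of elements outside `𝔫`. -/
theorem exists_of_isUnit {u : locAt (F := F) 𝔫} (hu : IsUnit u) :
    ∃ a s : R, a ∉ 𝔫 ∧ s ∉ 𝔫 ∧ (u : F) * algebraMap R F s = algebraMap R F a := by
  obtain ⟨a, s, hs, hus⟩ := (mem_locAt_iff 𝔫 (u : F)).1 u.2
  obtain ⟨u, rfl⟩ := hu
  obtain ⟨a', s', hs', hus'⟩ := (mem_locAt_iff 𝔫 (((u⁻¹ : (locAt (F := F) 𝔫)ˣ) :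
    locAt (F := F) 𝔫) : F)).1 ((u⁻¹ : (locAt (F := F) 𝔫)ˣ) : locAt (F := F) 𝔫).2
  have huu : ((u : locAt (F := F) 𝔫) : F) * (((u⁻¹ : (locAt (F := F) 𝔫)ˣ) :
      locAt (F := F) 𝔫) : F) = 1 := by
    rw [← MulMemClass.coe_mul, Units.mul_inv, OneMemClass.coe_one]
  have h1 : a * a' = s * s' := by
    apply IsFractionRing.injective R F
    rw [map_mul, map_mul, ← hus, ← hus']
    linear_combination (algebraMap R F s * algebraMap R F s') * huu
  refine ⟨a, s, fun ha => ?_, hs, hus⟩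
  have : s * s' ∈ 𝔫 := h1 ▸ 𝔫.mul_mem_right _ ha
  rcases (Ideal.IsPrime.mem_or_mem ‹_› this) with h | h
  · exact hs h
  · exact hs' h

end LocAt

section Main

variable [IsNoetherianRing R] {ι : Type*} [Fintype ι]
variable (V : ι → ValuationSubring F) (hV : ∀ i (r : R), algebraMap R F r ∈ V i)

omit [IsDomain R] [IsFractionRing R F] [IsNoetherianRing R] in
theorem cong_mem_nonunits {A : ValuationSubring F} {ϖ x : F} (hϖ : ϖ ∈ A.nonunits)
    (hx : Cong A ϖ x) : x ∈ A.nonunits := by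
  obtain ⟨w, hw, rfl⟩ := hx
  exact nu_mul' A hϖ hw

omit [IsDomain R] [IsFractionRing R F] [IsNoetherianRing R] in
/-- **The partition of unity**: `D ∉ 𝔫` vanishing on the components not through `𝔫`, and `y ∈ 𝔫`,
`y ≡ 0` modulo `ϖ` on the branches through `𝔫`, a unit on the other components. -/
theorem exists_delta (ϖ : R) (hϖV : ∀ i, algebraMap R F ϖ ∈ (V i).nonunits)
    {E : ℕ} (hE : ∀ i, ∀ x ∈ (V i).nonunits, Cong (V i) (algebraMap R F ϖ) (x ^ E))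
    (hinc : ∀ i j, i ≠ j → ¬ centre (V i) (hV i) ≤ centre (V j) (hV j))
    (𝔫 : Ideal R) [𝔫.IsPrime] (i₀ : ι) (hi₀ : centre (V i₀) (hV i₀) ≤ 𝔫) :
    ∃ D y : R, D ∉ 𝔫 ∧ y ∈ 𝔫 ∧
      (∀ i, centre (V i) (hV i) ≤ 𝔫 → Cong (V i) (algebraMap R F ϖ) (algebraMap R F y)) ∧
      (∀ j, ¬ centre (V j) (hV j) ≤ 𝔫 → D ∈ centre (V j) (hV j) ∧ y ∉ centre (V j) (hV j)) := by
  classical
  set 𝔭 : ι → Ideal R := fun i => centre (V i) (hV i) with h𝔭
  set J : Finset ι := Finset.univ.filter (fun j => ¬ 𝔭 j ≤ 𝔫) with hJ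
  set I : Finset ι := Finset.univ.filter (fun i => 𝔭 i ≤ 𝔫) with hI
  have hJmem : ∀ j, j ∈ J ↔ ¬ 𝔭 j ≤ 𝔫 := fun j => by simp [hJ]
  have hImem : ∀ i, i ∈ I ↔ 𝔭 i ≤ 𝔫 := fun i => by simp [hI]
  -- `D`
  have hd : ∀ j, ∃ d : R, (¬ 𝔭 j ≤ 𝔫 → d ∈ 𝔭 j) ∧ d ∉ 𝔫 := by
    intro j
    by_cases hj : 𝔭 j ≤ 𝔫
    · exact ⟨1, fun h => absurd hj h, fun h1 => (Ideal.ne_top_iff_one 𝔫).1 (Ideal.IsPrime.ne_top ‹_›) h1⟩
    · obtain ⟨d, hd1, hd2⟩ := SetLike.not_le_iff_exists.1 hj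
      exact ⟨d, fun _ => hd1, hd2⟩
  choose d hd1 hd2 using hd
  set D : R := ∏ j ∈ J, d j with hD
  have hD𝔫 : D ∉ 𝔫 := by
    rw [hD, Ideal.IsPrime.prod_mem_iff]
    rintro ⟨j, -, hj⟩
    exact hd2 j hj
  have hDJ : ∀ j, ¬ 𝔭 j ≤ 𝔫 → D ∈ 𝔭 j := by
    intro j hj
    exact Ideal.mem_of_dvd _ (Finset.dvd_prod_of_mem d ((hJmem j).2 hj)) (hd1 j hj)
  -- the ideal of elements `≡ 0` modulo `ϖ` on the branches through `𝔫`
  let 𝔞 : Ideal R :=
    { carrier := {r | ∀ i, 𝔭 i ≤ 𝔫 → Cong (V i) (algebraMap R F ϖ) (algebraMap R F r)}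
      add_mem' := fun {a b} ha hb i hi => by rw [map_add]; exact (ha i hi).add (hb i hi)
      zero_mem' := fun i _ => by rw [map_zero]; exact cong_zero
      smul_mem' := fun c a ha i hi => by
        rw [smul_eq_mul, map_mul]; exact (ha i hi).mul_left (hV i c) }
  have h𝔞 : ∀ r, r ∈ 𝔞 ↔ ∀ i, 𝔭 i ≤ 𝔫 → Cong (V i) (algebraMap R F ϖ) (algebraMap R F r) :=
    fun r => Iff.rfl
  -- prime avoidance
  have hy : ∃ y ∈ 𝔞, ∀ j ∈ J, y ∉ 𝔭 j := by
    by_contra hcon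
    push Not at hcon
    have hsub : (𝔞 : Set R) ⊆ ⋃ j ∈ (↑J : Set ι), (𝔭 j : Set R) := by
      intro y hy
      obtain ⟨j, hj, hyj⟩ := hcon y hy
      exact Set.mem_biUnion (show j ∈ (↑J : Set ι) from hj) hyj
    obtain ⟨j, hjJ, hj⟩ := (Ideal.subset_union_prime (f := 𝔭) i₀ i₀
      (fun i _ _ _ => centre_isPrime (V i) (hV i))).1 hsub
    -- elements `x i ∈ 𝔭 i ∖ 𝔭 j`
    have hx : ∀ i, ∃ x : R, (𝔭 i ≤ 𝔫 → x ∈ 𝔭 i) ∧ x ∉ 𝔭 j := by
      intro i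
      by_cases hi : 𝔭 i ≤ 𝔫
      · have hij : i ≠ j := by
          rintro rfl
          exact (hJmem i).1 hjJ hi
        obtain ⟨x, hx1, hx2⟩ := SetLike.not_le_iff_exists.1 (hinc i j hij)
        exact ⟨x, fun _ => hx1, hx2⟩
      · exact ⟨1, fun h => absurd h hi, fun h1 =>
          (Ideal.ne_top_iff_one (𝔭 j)).1 (centre_ne_top (V j) (hV j)) h1⟩
    choose x hx1 hx2 using hx
    set P : R := ∏ i ∈ I, x i with hP
    have hPE : P ^ E ∈ 𝔞 := by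
      rw [h𝔞]
      intro i hi
      rw [map_pow]
      refine hE i _ ?_
      have : P ∈ 𝔭 i :=
        Ideal.mem_of_dvd _ (Finset.dvd_prod_of_mem x ((hImem i).2 hi)) (hx1 i hi)
      exact this
    have h1 : P ^ E ∈ 𝔭 j := hj hPE
    have h2 : P ∈ 𝔭 j := (centre_isPrime (V j) (hV j)).mem_of_pow_mem E h1
    rw [hP, Ideal.IsPrime.prod_mem_iff] at h2
    obtain ⟨i, -, hi⟩ := h2
    exact hx2 i hi
  obtain ⟨y, hy𝔞, hyJ⟩ := hy
  refine ⟨D, y, hD𝔫, ?_, (h𝔞 y).1 hy𝔞, fun j hj => ⟨hDJ j hj, hyJ j ((hJmem j).2 hj)⟩⟩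
  exact hi₀ (cong_mem_nonunits (hϖV i₀) ((h𝔞 y).1 hy𝔞 i₀ hi₀))

omit [IsDomain R] [IsFractionRing R F] [IsNoetherianRing R] in
/-- A branch through every closed point of the special fibre. -/
theorem exists_branch (ϖ : R)
    {E : ℕ} (hE : ∀ i, ∀ x ∈ (V i).nonunits, Cong (V i) (algebraMap R F ϖ) (x ^ E))
    (hsat : ∀ r : R, (∀ i, Cong (V i) (algebraMap R F ϖ) (algebraMap R F r)) → ϖ ∣ r)
    (𝔫 : Ideal R) [𝔫.IsPrime] (hϖ𝔫 : ϖ ∈ 𝔫) : ∃ i₀, centre (V i₀) (hV i₀) ≤ 𝔫 := by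
  classical
  by_contra hcon
  push Not at hcon
  have hx : ∀ i, ∃ x : R, x ∈ centre (V i) (hV i) ∧ x ∉ 𝔫 := fun i =>
    SetLike.not_le_iff_exists.1 (hcon i)
  choose x hx1 hx2 using hx
  set P : R := ∏ i, x i with hP
  have h1 : ϖ ∣ P ^ E := by
    refine hsat _ fun i => ?_
    rw [map_pow]
    refine hE i _ ?_
    have : P ∈ centre (V i) (hV i) :=
      Ideal.mem_of_dvd _ (Finset.dvd_prod_of_mem x (Finset.mem_univ i)) (hx1 i)
    exact this
  have h2 : P ^ E ∈ 𝔫 := Ideal.mem_of_dvd _ h1 hϖ𝔫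
  have h3 : P ∈ 𝔫 := Ideal.IsPrime.mem_of_pow_mem ‹_› E h2
  rw [hP, Ideal.IsPrime.prod_mem_iff] at h3
  obtain ⟨i, -, hi⟩ := h3
  exact hx2 i hi

/-- **From a branch-wise local root to a local root congruent to `1` modulo `ϖ` on ALL vertical
components.** -/
theorem localRoot_of_tau (ϖ : R) (hϖ0 : ϖ ≠ 0) (hϖV : ∀ i, algebraMap R F ϖ ∈ (V i).nonunits)
    {E : ℕ} (hE : ∀ i, ∀ x ∈ (V i).nonunits, Cong (V i) (algebraMap R F ϖ) (x ^ E))
    (hsep : ∀ i (z : F), z ≠ 0 → ∃ n : ℕ, algebraMap R F ϖ ^ n * z⁻¹ ∈ V i)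
    (hinc : ∀ i j, i ≠ j → ¬ centre (V i) (hV i) ≤ centre (V j) (hV j))
    (hsat : ∀ r : R, (∀ i, Cong (V i) (algebraMap R F ϖ) (algebraMap R F r)) → ϖ ∣ r)
    (𝔫 : Ideal R) [𝔫.IsPrime] (i₀ : ι) (hi₀ : centre (V i₀) (hV i₀) ≤ 𝔫)
    {e : ℕ} (he : IsUnit ((e : ℕ) : R)) {h : F}
    (hh1 : ∀ i, Cong (V i) (algebraMap R F ϖ) (h - 1))
    {τ : F} {u : locAt (F := F) 𝔫} (hu : IsUnit u)
    (hh : h = algebraMap (locAt (F := F) 𝔫) F u * τ ^ e)
    (hτ : ∀ i, centre (V i) (hV i) ≤ 𝔫 → τ - 1 ∈ (V i).nonunits) :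
    ∃ τ' : F, τ' ≠ 0 ∧
      (∃ a r : R, a ∉ 𝔫 ∧ r ∉ 𝔫 ∧ h * algebraMap R F a = τ' ^ e * algebraMap R F r) ∧
      ∃ w : F, (∀ i, w ∈ V i) ∧ τ' - 1 = algebraMap R F ϖ * w := by
  classical
  set B := locAt (F := F) 𝔫 with hB
  have : IsLocalRing B := isLocalRing_locAt 𝔫
  have : IsNoetherianRing B := isNoetherianRing_locAt 𝔫
  have hinjR : Function.Injective (algebraMap R F) := IsFractionRing.injective R F
  set π : F := algebraMap R F ϖ with hπ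
  have hπ0 : π ≠ 0 := fun h0 => hϖ0 (hinjR (by rw [← hπ, h0, map_zero]))
  have hRB : ∀ r : R, algebraMap B F (algebraMap R B r) = algebraMap R F r := fun r => rfl
  -- the two families
  let ιI := {i // centre (V i) (hV i) ≤ 𝔫}
  let ιJ := {j // ¬ centre (V j) (hV j) ≤ 𝔫}
  let VI : ιI → ValuationSubring F := fun i => V i.1
  let VJ : ιJ → ValuationSubring F := fun j => V j.1
  have hVI : ∀ (i : ιI) (b : B), algebraMap B F b ∈ VI i := fun i b =>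
    locAt_le 𝔫 (V i.1) (hV i.1) i.2 b
  have : Nonempty ιI := ⟨⟨i₀, hi₀⟩⟩
  obtain ⟨D, y, hD𝔫, hy𝔫, hyI, hDJ⟩ := exists_delta V hV ϖ hϖV hE hinc 𝔫 i₀ hi₀
  -- `(⨅ centres) ^ M ≤ ϖ B`
  have hrad : (⨅ i : ιI, centre (VI i) (hVI i)) ≤ (Ideal.span {algebraMap R B ϖ}).radical := by
    intro x hx
    rw [Ideal.mem_iInf] at hx
    refine ⟨E, ?_⟩
    obtain ⟨a, s, hs, hxs⟩ := (mem_locAt_iff 𝔫 (x : F)).1 x.2
    have hxF : algebraMap B F x = (x : F) := rfl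
    have haD : ∀ i, algebraMap R F (a * D) ∈ (V i).nonunits := by
      intro i
      by_cases hi : centre (V i) (hV i) ≤ 𝔫
      · have h1 : (x : F) ∈ (V i).nonunits := (mem_centre.1 (hx ⟨i, hi⟩))
        rw [map_mul, ← hxs]
        exact nu_mul' (V i) (nu_mul' (V i) h1 (hV i s)) (hV i D)
      · rw [map_mul]
        exact nu_mul (V i) (hV i a) (mem_centre.1 (hDJ i hi).1)
    obtain ⟨c, hc⟩ := hsat ((a * D) ^ E) (fun i => by rw [map_pow]; exact hE i _ (haD i))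
    have hsD : (s * D) ^ E ∉ 𝔫 := fun hmem =>
      (Ideal.IsPrime.mem_or_mem ‹_› (Ideal.IsPrime.mem_of_pow_mem ‹_› E hmem)).elim hs hD𝔫
    rw [Ideal.mem_span_singleton]
    refine ⟨frac 𝔫 c ((s * D) ^ E) hsD, Subtype.ext ?_⟩
    show (x : F) ^ E = algebraMap R F ϖ * (algebraMap R F c / algebraMap R F ((s * D) ^ E))
    have h1 := algebraMap_ne_zero (F := F) 𝔫 hsD
    have h2 : algebraMap R F ((a * D) ^ E) = algebraMap R F ϖ * algebraMap R F c := by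
      rw [hc, map_mul]
    rw [← mul_div_assoc, eq_div_iff h1, ← h2, map_pow, map_pow, map_mul, map_mul, ← hxs]
    ring
  obtain ⟨M, hM⟩ := Ideal.exists_pow_le_of_le_radical_of_fg hrad (IsNoetherian.noetherian _)
  -- the strong upgrade on the branches through `𝔫`
  have heB : IsUnit ((e : ℕ) : B) := by
    have := he.map (algebraMap R B)
    rwa [map_natCast] at this
  have hfϖ : ∀ i : ιI, ∃ w ∈ VI i, h - 1 = algebraMap B F (algebraMap R B ϖ) * w :=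
    fun i => hh1 i.1
  have hf1 : ∀ i : ιI, h - 1 ∈ (VI i).nonunits := fun i =>
    cong_mem_nonunits (hϖV i.1) (hh1 i.1)
  obtain ⟨τ₁, u₁, hτ₁0, hu₁, hh₁, -, hτ₁⟩ := exists_tau_strong VI hVI (algebraMap R B ϖ) hM heB hu
    hh hfϖ hf1 (fun i => hτ i.1 i.2)
  -- the partition of unity
  have hDy : D + y ∉ 𝔫 := fun hmem => hD𝔫 (by
    have : D = (D + y) - y := by ring
    rw [this]
    exact 𝔫.sub_mem hmem hy𝔫)
  set δ : B := frac 𝔫 D (D + y) hDy with hδ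
  have hDy0 : algebraMap R F (D + y) ≠ 0 := algebraMap_ne_zero 𝔫 hDy
  have hδF : algebraMap B F δ = algebraMap R F D / algebraMap R F (D + y) := rfl
  have hδ1 : δ - 1 ∈ maximalIdeal B := by
    have h1 : δ - 1 = frac 𝔫 (-y) (D + y) hDy := by
      apply Subtype.ext
      show algebraMap R F D / algebraMap R F (D + y) - 1 =
        algebraMap R F (-y) / algebraMap R F (D + y)
      rw [map_neg, map_add] at *
      field_simp
      ring
    rw [h1]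
    exact frac_mem_maximalIdeal 𝔫 (𝔫.neg_mem hy𝔫) hDy
  -- `D + y` is a unit at every `V i`
  have hDyu : ∀ i, (algebraMap R F (D + y))⁻¹ ∈ V i := by
    intro i
    have hnot : algebraMap R F (D + y) ∉ (V i).nonunits := by
      by_cases hi : centre (V i) (hV i) ≤ 𝔫
      · exact fun hmem => hDy (hi hmem)
      · intro hmem
        apply (hDJ i hi).2
        have : y = (D + y) - D := by ring
        rw [this]
        exact (centre (V i) (hV i)).sub_mem hmem (hDJ i hi).1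
    rw [(V i).mem_nonunits_iff_or, not_or, not_not] at hnot
    exact hnot.2
  have hδI : ∀ i : ιI, Cong (VI i) π (algebraMap B F δ - 1) := by
    intro i
    have : algebraMap B F δ - 1 = -(algebraMap R F y) * (algebraMap R F (D + y))⁻¹ := by
      rw [hδF, map_add] at *
      field_simp
      ring
    rw [this]
    exact ((hyI i.1 i.2).neg).mul_right (hDyu i.1)
  have hδJ : ∀ j : ιJ, algebraMap B F δ ∈ (VJ j).nonunits := by
    intro j
    rw [hδF, div_eq_mul_inv]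
    exact nu_mul' (V j.1) (mem_centre.1 (hDJ j.1 j.2).1) (hDyu j.1)
  have harch : ∀ (j : ιJ) (z : F), z ≠ 0 → ∃ n : ℕ, algebraMap B F δ ^ n * z⁻¹ ∈ VJ j := by
    intro j z hz
    obtain ⟨n₀, hn₀⟩ := hsep j.1 z hz
    obtain ⟨w, hw, hδE⟩ := hE j.1 _ (hδJ j)
    refine ⟨E * n₀, ?_⟩
    have : algebraMap B F δ ^ (E * n₀) * z⁻¹ = w ^ n₀ * (π ^ n₀ * z⁻¹) := by
      rw [pow_mul, hδE, mul_pow]; ring
    rw [this]
    exact mul_mem (pow_mem hw n₀) hn₀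
  obtain ⟨r, hru, hrI, hrJ⟩ := exists_spread VI VJ hVI hπ0 (fun j => hϖV j.1) hδ1 hδI hδJ harch
    hτ₁0
  -- assemble
  obtain ⟨ru, rfl⟩ := hru
  have hrF : algebraMap B F (ru : B) * algebraMap B F ((ru⁻¹ : Bˣ) : B) = 1 := by
    rw [← map_mul, Units.mul_inv, map_one]
  have hr0 : algebraMap B F (ru : B) ≠ 0 := left_ne_zero_of_mul_eq_one hrF
  set τ' : F := τ₁ * algebraMap B F (ru : B) with hτ'
  have hu₂ : IsUnit (u₁ * ((ru⁻¹ : Bˣ) : B) ^ e) := hu₁.mul ((ru⁻¹).isUnit.pow e)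
  have hh₂ : h = algebraMap B F (u₁ * ((ru⁻¹ : Bˣ) : B) ^ e) * τ' ^ e := by
    have h1 : (algebraMap B F (ru : B) * algebraMap B F ((ru⁻¹ : Bˣ) : B)) ^ e = 1 := by
      rw [hrF, one_pow]
    rw [mul_pow] at h1
    rw [hh₁, hτ', map_mul, map_pow, mul_pow]
    linear_combination (-(algebraMap B F u₁ * τ₁ ^ e)) * h1
  obtain ⟨a₂, s₂, ha₂, hs₂, hus₂⟩ := exists_of_isUnit 𝔫 hu₂
  have hcong : ∀ i, Cong (V i) π (τ' - 1) := by
    intro i
    by_cases hi : centre (V i) (hV i) ≤ 𝔫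
    · have h1 : Cong (V i) π (τ₁ - 1) := hτ₁ ⟨i, hi⟩
      have h2 : Cong (V i) π (algebraMap B F (ru : B) - 1) := hrI ⟨i, hi⟩
      have : τ' - 1 = (τ₁ - 1) * algebraMap B F (ru : B) + (algebraMap B F (ru : B) - 1) := by
        rw [hτ']; ring
      rw [this]
      exact (h1.mul_right (hVI ⟨i, hi⟩ _)).add h2
    · exact hrJ ⟨i, hi⟩
  refine ⟨τ', mul_ne_zero hτ₁0 hr0, ⟨s₂, a₂, hs₂, ha₂, ?_⟩, (τ' - 1) * π⁻¹, fun i => ?_, ?_⟩
  · rw [hh₂, ← hus₂]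
    show algebraMap B F (u₁ * ((ru⁻¹ : Bˣ) : B) ^ e) * τ' ^ e * algebraMap R F s₂ =
      τ' ^ e * (algebraMap B F (u₁ * ((ru⁻¹ : Bˣ) : B) ^ e) * algebraMap R F s₂)
    ring
  · obtain ⟨w, hw, hwe⟩ := hcong i
    have : (τ' - 1) * π⁻¹ = w := by
      rw [hwe]; field_simp
    rw [this]
    exact hw
  · field_simp

end Main

end Fermat.Agent.S36.Local.ChartSpread
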