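/-
S36 block [L] (local roots), file 6: **existence of a local root at a factorial closed point**.

Chart `R` (noetherian domain, `O`-algebra), `F = Frac R`, vertical valuation rings `V i ⊇ R` as in
`ChartSpread`.  At a prime `𝔫 ∋ ϖ` with `B = locAt 𝔫` FACTORIAL (regular closed point):

* `exists_centre_eq_span` : a prime element `x` of `B` dividing `ϖ` generates the centre of one of the
  branches `V i` through `𝔫`;
* `exists_root_locAt` : if `h` is a unit of every `V i` and `h` is horizontally an `e`-th power up to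
  units (`N4.Cover.Globalize.Horizontal`), then `h = u η ^ e` with `u ∈ Bˣ`.
-/
import Mathlib
import Fermat.Agent.N4.Cover.Globalize
import Fermat.Agent.S36.Local.ChartSpread

set_option autoImplicit false

namespace Fermat.Agent.S36.Local.UfdRoot

open Fermat.Agent.S36.Local.LocalRoot Fermat.Agent.S36.Local.Spread
  Fermat.Agent.S36.Local.ChartSpread Fermat.Agent.N4.Cover.Globalize
  Fermat.Agent.N4.Cover.LocalUFD IsLocalRing

universe u

section Abstract

variable {B F : Type*} [CommRing B] [IsDomain B] [Field F] [Algebra B F] [IsFractionRing B F]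

/-- The local `e`-th power criterion at a vertical prime: `h` a unit of `V = B_(x)`. -/
theorem hloc_of_unit (V : ValuationSubring F) (hV : ∀ b : B, algebraMap B F b ∈ V) {x : B}
    (hx : centre V hV = Ideal.span {x})
    (hlocV : ∀ z ∈ V, ∃ a b : B, b ∉ centre V hV ∧ z * algebraMap B F b = algebraMap B F a)
    {h : F} (hh : h ∈ V) (hhi : h⁻¹ ∈ V) (hh0 : h ≠ 0) (e : ℕ) :
    ∃ c d m n : B, ¬ x ∣ c ∧ ¬ x ∣ d ∧ n ≠ 0 ∧
      h * algebraMap B F d * algebraMap B F n ^ e = algebraMap B F c * algebraMap B F m ^ e := by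
  have hinj : Function.Injective (algebraMap B F) := IsFractionRing.injective B F
  obtain ⟨a, b, hb, hab⟩ := hlocV h hh
  obtain ⟨a', b', hb', hab'⟩ := hlocV h⁻¹ hhi
  have hnot : ∀ z : B, z ∉ centre V hV ↔ ¬ x ∣ z := fun z => by
    rw [hx, Ideal.mem_span_singleton]
  have haa : a * a' = b * b' := by
    apply hinj
    rw [map_mul, map_mul, ← hab, ← hab']
    field_simp
  have ha : ¬ x ∣ a := by
    intro hdvd
    have h1 : b * b' ∈ centre V hV := by
      rw [← haa, hx, Ideal.mem_span_singleton]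
      exact Dvd.dvd.mul_right hdvd _
    rcases (centre_isPrime V hV).mem_or_mem h1 with h2 | h2
    · exact hb h2
    · exact hb' h2
  refine ⟨a, b, 1, 1, ha, (hnot b).1 hb, one_ne_zero, ?_⟩
  rw [map_one, one_pow, mul_one, mul_one]
  exact hab

end Abstract

section Chart

variable {R F : Type*} [CommRing R] [IsDomain R] [IsNoetherianRing R] [Field F] [Algebra R F]
  [IsFractionRing R F] {ι : Type*} [Fintype ι]
variable (V : ι → ValuationSubring F) (hV : ∀ i (r : R), algebraMap R F r ∈ V i)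

omit [IsNoetherianRing R] in
/-- `⨅ (centres of the branches through 𝔫) ≤ rad (ϖ B)`. -/
theorem iInf_centre_le_radical (ϖ : R) (hϖV : ∀ i, algebraMap R F ϖ ∈ (V i).nonunits)
    {E : ℕ} (hE : ∀ i, ∀ x ∈ (V i).nonunits, Cong (V i) (algebraMap R F ϖ) (x ^ E))
    (hinc : ∀ i j, i ≠ j → ¬ centre (V i) (hV i) ≤ centre (V j) (hV j))
    (hsat : ∀ r : R, (∀ i, Cong (V i) (algebraMap R F ϖ) (algebraMap R F r)) → ϖ ∣ r)
    (𝔫 : Ideal R) [𝔫.IsPrime] (i₀ : ι) (hi₀ : centre (V i₀) (hV i₀) ≤ 𝔫) :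
    (⨅ i : {i // centre (V i) (hV i) ≤ 𝔫},
        centre (V i.1) (fun b => locAt_le 𝔫 (V i.1) (hV i.1) i.2 b)) ≤
      (Ideal.span {algebraMap R (locAt (F := F) 𝔫) ϖ}).radical := by
  classical
  obtain ⟨D, y, hD𝔫, -, -, hDJ⟩ := exists_delta V hV ϖ hϖV hE hinc 𝔫 i₀ hi₀
  intro x hx
  rw [Ideal.mem_iInf] at hx
  refine ⟨E, ?_⟩
  obtain ⟨a, s, hs, hxs⟩ := (mem_locAt_iff 𝔫 (x : F)).1 x.2
  have haD : ∀ i, algebraMap R F (a * D) ∈ (V i).nonunits := by
    intro i
    by_cases hi : centre (V i) (hV i) ≤ 𝔫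
    · have h1 : (x : F) ∈ (V i).nonunits := (mem_centre.1 (hx ⟨i, hi⟩))
      rw [map_mul, ← hxs]
      exact nu_mul' (V i) (nu_mul' (V i) h1 (hV i s)) (hV i D)
    · rw [map_mul]
      exact nu_mul (V i) (hV i a) (mem_centre.1 (hDJ i hi).1)
  obtain ⟨c, hc⟩ := hsat ((a * D) ^ E) (fun i => by rw [map_pow]; exact hE i _ (haD i))
  have hsD : (s * D) ^ E ∉ 𝔫 := fun hmem =>
    (Ideal.IsPrime.mem_or_mem ‹_› (Ideal.IsPrime.mem_of_pow_mem ‹_› E hmem)).elim hs hD𝔫
  rw [Ideal.mem_span_singleton]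
  refine ⟨frac 𝔫 c ((s * D) ^ E) hsD, Subtype.ext ?_⟩
  show (x : F) ^ E = algebraMap R F ϖ * (algebraMap R F c / algebraMap R F ((s * D) ^ E))
  have h1 := ChartSpread.algebraMap_ne_zero (F := F) 𝔫 hsD
  have h2 : algebraMap R F ((a * D) ^ E) = algebraMap R F ϖ * algebraMap R F c := by
    rw [hc, map_mul]
  rw [← mul_div_assoc, eq_div_iff h1, ← h2, map_pow, map_pow, map_mul, map_mul, ← hxs]
  ring

omit [IsNoetherianRing R] in
/-- **A vertical prime element of a factorial local ring generates the centre of a branch.** -/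
theorem exists_centre_eq_span (ϖ : R) (hϖ0 : ϖ ≠ 0)
    (hϖV : ∀ i, algebraMap R F ϖ ∈ (V i).nonunits)
    {E : ℕ} (hE : ∀ i, ∀ x ∈ (V i).nonunits, Cong (V i) (algebraMap R F ϖ) (x ^ E))
    (hinc : ∀ i j, i ≠ j → ¬ centre (V i) (hV i) ≤ centre (V j) (hV j))
    (hsat : ∀ r : R, (∀ i, Cong (V i) (algebraMap R F ϖ) (algebraMap R F r)) → ϖ ∣ r)
    (𝔫 : Ideal R) [𝔫.IsPrime] (i₀ : ι) (hi₀ : centre (V i₀) (hV i₀) ≤ 𝔫)
    [UniqueFactorizationMonoid (locAt (F := F) 𝔫)]
    {x : locAt (F := F) 𝔫} (hx : Prime x) (hxϖ : x ∣ algebraMap R (locAt (F := F) 𝔫) ϖ) :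
    ∃ i : {i // centre (V i) (hV i) ≤ 𝔫},
      centre (V i.1) (fun b => locAt_le 𝔫 (V i.1) (hV i.1) i.2 b) = Ideal.span {x} := by
  classical
  have hxI : (Ideal.span {x}).IsPrime := (Ideal.span_singleton_prime hx.ne_zero).2 hx
  have h1 := iInf_centre_le_radical V hV ϖ hϖV hE hinc hsat 𝔫 i₀ hi₀
  have h2 : (Ideal.span {algebraMap R (locAt (F := F) 𝔫) ϖ}).radical ≤ Ideal.span {x} := by
    rw [hxI.radical_le_iff, Ideal.span_singleton_le_iff_mem, Ideal.mem_span_singleton]
    exact hxϖ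
  have h3 : (Finset.univ.inf fun i : {i // centre (V i) (hV i) ≤ 𝔫} =>
      centre (V i.1) (fun b => locAt_le 𝔫 (V i.1) (hV i.1) i.2 b)) ≤ Ideal.span {x} := by
    refine le_trans ?_ (h1.trans h2)
    intro z hz
    rw [Submodule.mem_finsetInf] at hz
    rw [Ideal.mem_iInf]
    exact fun i => hz i (Finset.mem_univ i)
  obtain ⟨i, -, hi⟩ := (Ideal.IsPrime.inf_le' hxI).1 h3
  refine ⟨i, le_antisymm hi ?_⟩
  -- the centre is a nonzero prime, so it contains a prime element, associated to `x`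
  set P := centre (V i.1) (fun b => locAt_le 𝔫 (V i.1) (hV i.1) i.2 b) with hP
  have hPne : P ≠ ⊥ := by
    intro h0
    have hmem : algebraMap R (locAt (F := F) 𝔫) ϖ ∈ P := by
      rw [hP, mem_centre]
      exact hϖV i.1
    rw [h0, Ideal.mem_bot] at hmem
    have hinj : Function.Injective (algebraMap R (locAt (F := F) 𝔫)) :=
      IsLocalization.injective (locAt (F := F) 𝔫) 𝔫.primeCompl_le_nonZeroDivisors
    exact hϖ0 (hinj (by rw [hmem, map_zero]))
  obtain ⟨p, hpP, hp⟩ := Ideal.IsPrime.exists_mem_prime_of_ne_bot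
    (centre_isPrime (V i.1) (fun b => locAt_le 𝔫 (V i.1) (hV i.1) i.2 b)) hPne
  have hxp : x ∣ p := by
    have := hi hpP
    rwa [Ideal.mem_span_singleton] at this
  obtain ⟨w, hw⟩ := hx.irreducible.dvd_symm hp.irreducible hxp
  rw [Ideal.span_singleton_le_iff_mem]
  rw [hw]
  exact Ideal.mul_mem_right _ _ hpP

end Chart

section Root

variable {O K₀ : Type*} [CommRing O] [IsDomain O] [IsDiscreteValuationRing O]
  [Field K₀] [Algebra O K₀] [IsFractionRing O K₀]
variable {R : Type*} [CommRing R] [IsDomain R] [IsNoetherianRing R] [Algebra O R]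
variable {F : Type u} [Field F] [Algebra R F] [IsFractionRing R F] [Algebra O F] [Algebra K₀ F]
  [IsScalarTower O R F] [IsScalarTower O K₀ F]
variable {ι : Type*} [Fintype ι]
variable (V : ι → ValuationSubring F) (hV : ∀ i (r : R), algebraMap R F r ∈ V i)

omit [IsDomain R] [IsNoetherianRing R] [IsFractionRing R F] in
/-- The local `e`-th power criterion at a horizontal prime of a noetherian domain `S ⊇ R` with
fraction field `F` (e.g. `S = locAt 𝔫`). -/
theorem hloc_of_horizontal {S : Type*} [CommRing S] [IsDomain S] [IsNoetherianRing S]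
    [Algebra R S] [Algebra S F] [IsScalarTower R S F] [IsFractionRing S F]
    {π : O} (hπ : Irreducible π)
    {e : ℕ} {h : F} (hhor : Horizontal K₀ e h) {x : S} (hx : Prime x)
    (hxπ : ¬ x ∣ algebraMap R S (algebraMap O R π)) :
    ∃ c d m n : S, ¬ x ∣ c ∧ ¬ x ∣ d ∧ n ≠ 0 ∧
      h * algebraMap S F d * algebraMap S F n ^ e = algebraMap S F c * algebraMap S F m ^ e := by
  have hSF : ∀ r : R, algebraMap S F (algebraMap R S r) = algebraMap R F r := fun r =>
    (IsScalarTower.algebraMap_apply R S F r).symm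
  have hinjS : Function.Injective (algebraMap S F) := IsFractionRing.injective S F
  have hxI : (Ideal.span {x}).IsPrime := (Ideal.span_singleton_prime hx.ne_zero).2 hx
  set W := locAt (R := S) (F := F) (Ideal.span {x}) with hW
  have : IsDiscreteValuationRing W := isDiscreteValuationRing_locAt_span (F := F) hx
  have hxnot : ∀ y : S, y ∉ Ideal.span {x} ↔ ¬ x ∣ y := fun y => by
    rw [Ideal.mem_span_singleton]
  have hK : ∀ a : K₀, algebraMap K₀ F a ∈ (algebraMap W F).range := by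
    intro a
    obtain ⟨b, c, hc, rfl⟩ := IsFractionRing.div_surjective (A := O) a
    have hc0 : c ≠ 0 := nonZeroDivisors.ne_zero hc
    obtain ⟨n, hn⟩ := IsDiscreteValuationRing.associated_pow_irreducible hc0 hπ
    have hcS : ¬ x ∣ algebraMap R S (algebraMap O R c) := by
      intro hdvd
      obtain ⟨u, hu⟩ := hn
      have h1 : algebraMap R S (algebraMap O R c) * algebraMap R S (algebraMap O R (u : O)) =
          algebraMap R S (algebraMap O R π) ^ n := by
        rw [← map_mul, ← map_mul, hu, map_pow, map_pow]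
      have h2 : x ∣ algebraMap R S (algebraMap O R π) ^ n := h1 ▸ Dvd.dvd.mul_right hdvd _
      exact hxπ (hx.dvd_of_dvd_pow h2)
    have hmem : algebraMap K₀ F (algebraMap O K₀ b / algebraMap O K₀ c) ∈ W := by
      rw [hW, mem_locAt_iff]
      refine ⟨algebraMap R S (algebraMap O R b), algebraMap R S (algebraMap O R c),
        (hxnot _).2 hcS, ?_⟩
      rw [hSF, hSF, ← IsScalarTower.algebraMap_apply O R F, ← IsScalarTower.algebraMap_apply O R F,
        IsScalarTower.algebraMap_apply O K₀ F, IsScalarTower.algebraMap_apply O K₀ F, map_div₀]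
      have : algebraMap K₀ F (algebraMap O K₀ c) ≠ 0 := by
        rw [Ne, map_eq_zero]
        exact fun h0 => hc0 (IsFractionRing.injective O K₀ (by rw [h0, map_zero]))
      field_simp
    exact ⟨⟨_, hmem⟩, rfl⟩
  obtain ⟨u, g, hfu⟩ := hhor W hK
  obtain ⟨c, d, hd, hud⟩ := (mem_locAt_iff (Ideal.span {x}) ((u : W) : F)).1 (u : W).2
  obtain ⟨c', d', hd', hud'⟩ := (mem_locAt_iff (Ideal.span {x}) (((u⁻¹ : Wˣ) : W) : F)).1
    ((u⁻¹ : Wˣ) : W).2
  have huu : ((u : W) : F) * (((u⁻¹ : Wˣ) : W) : F) = 1 := by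
    rw [← MulMemClass.coe_mul, Units.mul_inv, OneMemClass.coe_one]
  have hcc : c * c' = d * d' := by
    apply hinjS
    rw [map_mul, map_mul, ← hud, ← hud']
    linear_combination (algebraMap S F d * algebraMap S F d') * huu
  have hc : ¬ x ∣ c := by
    intro hdvd
    have : x ∣ d * d' := hcc ▸ Dvd.dvd.mul_right hdvd _
    rcases hx.dvd_or_dvd this with h1 | h1
    · exact (hxnot d).1 hd h1
    · exact (hxnot d').1 hd' h1
  obtain ⟨m, n, hn, rfl⟩ := IsFractionRing.div_surjective (A := S) g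
  have hn0 : n ≠ 0 := nonZeroDivisors.ne_zero hn
  have hnF : algebraMap S F n ≠ 0 := fun h0 => hn0 (hinjS (by rw [h0, map_zero]))
  refine ⟨c, d, m, n, hc, (hxnot d).1 hd, hn0, ?_⟩
  have hVF : algebraMap W F (u : W) = ((u : W) : F) := rfl
  rw [hfu, hVF, div_pow, ← hud]
  field_simp

/-- **Existence of a local root at a factorial closed point.** -/
theorem exists_root_locAt {π : O} (hπ : Irreducible π)
    (hϖ0 : algebraMap O R π ≠ 0)
    (hϖV : ∀ i, algebraMap R F (algebraMap O R π) ∈ (V i).nonunits)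
    {E : ℕ} (hE : ∀ i, ∀ x ∈ (V i).nonunits,
      Cong (V i) (algebraMap R F (algebraMap O R π)) (x ^ E))
    (hinc : ∀ i j, i ≠ j → ¬ centre (V i) (hV i) ≤ centre (V j) (hV j))
    (hsat : ∀ r : R, (∀ i, Cong (V i) (algebraMap R F (algebraMap O R π)) (algebraMap R F r)) →
      algebraMap O R π ∣ r)
    (hlocV : ∀ i, ∀ z ∈ V i, ∃ a b : R, b ∉ centre (V i) (hV i) ∧
      z * algebraMap R F b = algebraMap R F a)
    (𝔫 : Ideal R) [𝔫.IsPrime] (i₀ : ι) (hi₀ : centre (V i₀) (hV i₀) ≤ 𝔫)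
    [UniqueFactorizationMonoid (locAt (F := F) 𝔫)]
    {e : ℕ} (he : 0 < e) {h : F} (hh0 : h ≠ 0) (hhor : Horizontal K₀ e h)
    (hhV : ∀ i, h ∈ V i ∧ h⁻¹ ∈ V i) :
    ∃ (u : (locAt (F := F) 𝔫)ˣ) (η : F), η ≠ 0 ∧
      h = algebraMap (locAt (F := F) 𝔫) F u * η ^ e := by
  refine exists_unit_mul_pow (T := locAt (F := F) 𝔫) (K := F) he hh0 fun x hx => ?_
  by_cases hxπ : x ∣ algebraMap R (locAt (F := F) 𝔫) (algebraMap O R π)
  · obtain ⟨i, hi⟩ := exists_centre_eq_span V hV (algebraMap O R π) hϖ0 hϖV hE hinc hsat 𝔫 i₀ hi₀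
      hx hxπ
    refine hloc_of_unit (V i.1) (fun b => locAt_le 𝔫 (V i.1) (hV i.1) i.2 b) hi ?_ (hhV i.1).1
      (hhV i.1).2 hh0 e
    intro z hz
    obtain ⟨a, b, hb, hab⟩ := hlocV i.1 z hz
    exact ⟨algebraMap R (locAt (F := F) 𝔫) a, algebraMap R (locAt (F := F) 𝔫) b, hb, hab⟩
  · have : IsNoetherianRing (locAt (F := F) 𝔫) := isNoetherianRing_locAt 𝔫
    exact hloc_of_horizontal (K₀ := K₀) (R := R) hπ hhor hx hxπ

end Root

end Fermat.Agent.S36.Local.UfdRoot
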